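import Mathlib
import Fermat.Prelude.Def_ModularForm_HeckeOperator

/-!
# S22, piece P6 (decomposition): Hermite normal form for `2 × 2` integral matrices

* `Fermat.Agent.S22.exists_SL2_mul_upper`: an integral matrix of positive determinant is
  `SL₂(ℤ) · (upper triangular with positive diagonal)`.
* `Fermat.Agent.S22.upper_mul_SL2_eq`: the same in `GL (Fin 2) ℝ`, in the form used for Hecke
  operators: `u * δ = δ' * u'`.
-/

set_option autoImplicit false

namespace Fermat.Agent.S22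

open scoped MatrixGroups

/-- Hermite normal form: integral matrix of positive determinant = SL₂(ℤ) · upper triangular. -/
theorem exists_SL2_mul_upper (A : Matrix (Fin 2) (Fin 2) ℤ) (hA : 0 < A.det) :
    ∃ (δ : SL(2, ℤ)) (a b d : ℤ), 0 < a ∧ 0 < d ∧
      A = (δ : Matrix (Fin 2) (Fin 2) ℤ) * !![a, b; 0, d] := by
  rw [Matrix.det_fin_two] at hA
  set a0 := A 0 0 with ha0
  set b0 := A 0 1 with hb0
  set c0 := A 1 0 with hc0
  set d0 := A 1 1 with hd0
  have hg0 : (Int.gcd a0 c0 : ℤ) ≠ 0 := by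
    intro h
    have h' : Int.gcd a0 c0 = 0 := by exact_mod_cast h
    rw [Int.gcd_eq_zero_iff] at h'
    rw [h'.1, h'.2] at hA
    simp at hA
  have hgpos : 0 < (Int.gcd a0 c0 : ℤ) := lt_of_le_of_ne (by positivity) (Ne.symm hg0)
  obtain ⟨a', ha'⟩ : (Int.gcd a0 c0 : ℤ) ∣ a0 := Int.gcd_dvd_left a0 c0
  obtain ⟨c', hc'⟩ : (Int.gcd a0 c0 : ℤ) ∣ c0 := Int.gcd_dvd_right a0 c0
  have hbez := Int.gcd_eq_gcd_ab a0 c0
  set g : ℤ := (Int.gcd a0 c0 : ℤ) with hg
  set x := Int.gcdA a0 c0 with hx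
  set y := Int.gcdB a0 c0 with hy
  have h1 : a' * x + c' * y = 1 := by
    have : g * (a' * x + c' * y) = g * 1 := by
      rw [mul_one]
      calc g * (a' * x + c' * y) = (g * a') * x + (g * c') * y := by ring
        _ = a0 * x + c0 * y := by rw [← ha', ← hc']
        _ = g := hbez.symm
    exact mul_left_cancel₀ hg0 this
  have hdet : (!![a', -y; c', x] : Matrix (Fin 2) (Fin 2) ℤ).det = 1 := by
    rw [Matrix.det_fin_two_of]
    linarith
  refine ⟨⟨!![a', -y; c', x], hdet⟩, g, x * b0 + y * d0, a' * d0 - c' * b0, hgpos, ?_, ?_⟩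
  · have : 0 < g * (a' * d0 - c' * b0) := by
      have : g * (a' * d0 - c' * b0) = a0 * d0 - b0 * c0 := by
        rw [ha', hc']; ring
      rw [this]; exact hA
    exact (pos_iff_pos_of_mul_pos this).1 hgpos
  · ext i j
    fin_cases i <;> fin_cases j
    · simp [Matrix.mul_apply, Fin.sum_univ_two, ← ha0]
      rw [ha']; ring
    · simp [Matrix.mul_apply, Fin.sum_univ_two, ← hb0]
      linear_combination (-b0) * h1
    · simp [Matrix.mul_apply, Fin.sum_univ_two, ← hc0]
      rw [hc']; ring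
    · simp [Matrix.mul_apply, Fin.sum_univ_two, ← hd0]
      linear_combination (-d0) * h1

/-- the same in `GL (Fin 2) ℝ`, in the form used for Hecke operators. -/
theorem upper_mul_SL2_eq (a b d : ℤ) (ha : 0 < a) (hd : 0 < d) (δ : SL(2, ℤ)) :
    ∃ (δ' : SL(2, ℤ)) (a' b' d' : ℤ) (ha' : 0 < a') (hd' : 0 < d'),
      ModularForm.upperTriangularGL a b d (by positivity) * (δ : GL (Fin 2) ℝ) =
        (δ' : GL (Fin 2) ℝ) * ModularForm.upperTriangularGL a' b' d' (by positivity) := by
  have hdet : 0 < ((!![a, b; 0, d] : Matrix (Fin 2) (Fin 2) ℤ) *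
      (δ : Matrix (Fin 2) (Fin 2) ℤ)).det := by
    rw [Matrix.det_mul, Matrix.det_fin_two_of, δ.det_coe]
    simp only [mul_zero, sub_zero, mul_one]
    exact mul_pos ha hd
  obtain ⟨δ', a', b', d', ha', hd', h⟩ := exists_SL2_mul_upper _ hdet
  refine ⟨δ', a', b', d', ha', hd', ?_⟩
  apply Matrix.GeneralLinearGroup.ext
  intro i j
  have h2 := congrArg (fun M : Matrix (Fin 2) (Fin 2) ℤ => ((M i j : ℤ) : ℝ)) h
  simp only [Matrix.mul_apply, Fin.sum_univ_two] at h2
  simp only [Matrix.GeneralLinearGroup.coe_mul, ModularForm.val_upperTriangularGL,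
    Matrix.mul_apply, Fin.sum_univ_two]
  fin_cases i <;> fin_cases j <;> simpa using h2

end Fermat.Agent.S22
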