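import Mathlib

/-!
# S22, piece P6 (a): `Γ₀(N)` is finitely generated and has finitely many cosets in `SL(2, ℤ)`.
-/

set_option autoImplicit false

open scoped MatrixGroups
open CongruenceSubgroup

namespace Fermat.Agent.S22

/-- `SL(2, ℤ)` is finitely generated (by `S` and `T`). -/
theorem sl2Z_fg : Group.FG SL(2, ℤ) := by
  rw [Group.fg_iff]
  refine ⟨{ModularGroup.S, ModularGroup.T}, _root_.SpecialLinearGroup.SL2Z_generators, ?_⟩
  exact Set.toFinite _

/-- `Γ₀(N)` is finitely generated as a subgroup of `SL(2, ℤ)`. -/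
theorem gamma0_fg (N : ℕ) [NeZero N] : (Gamma0 N).FG := by
  haveI := sl2Z_fg
  rw [← Group.fg_iff_subgroup_fg]
  infer_instance

theorem Gamma0_exists_finite_generators (N : ℕ) [NeZero N] :
    ∃ T : Finset SL(2, ℤ), (∀ t ∈ T, t ∈ Gamma0 N) ∧
      Subgroup.closure (T : Set SL(2, ℤ)) = Gamma0 N := by
  obtain ⟨T, hT⟩ := gamma0_fg N
  refine ⟨T, fun t ht => ?_, hT⟩
  rw [← hT]
  exact Subgroup.subset_closure ht

theorem Gamma0_exists_coset_reps (N : ℕ) [NeZero N] :
    ∃ R : Finset SL(2, ℤ), ∀ δ : SL(2, ℤ), ∃ γ ∈ Gamma0 N, ∃ r ∈ R, δ = γ * r := by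
  classical
  haveI : (Gamma0 N).FiniteIndex := inferInstance
  haveI hfinq : Finite (Quotient (QuotientGroup.rightRel (Gamma0 N))) := by
    have := Subgroup.finite_quotient_of_finiteIndex (H := Gamma0 N)
    exact Finite.of_equiv _ (QuotientGroup.quotientRightRelEquivQuotientLeftRel _).symm
  haveI := Fintype.ofFinite (Quotient (QuotientGroup.rightRel (Gamma0 N)))
  refine ⟨Finset.univ.image
    (fun q : Quotient (QuotientGroup.rightRel (Gamma0 N)) => q.out), fun δ => ?_⟩
  set ρ := (Quotient.mk (QuotientGroup.rightRel (Gamma0 N)) δ).out with hρ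
  have hrel : (QuotientGroup.rightRel (Gamma0 N)) ρ δ := Quotient.exact (Quotient.out_eq _)
  rw [QuotientGroup.rightRel_apply] at hrel
  refine ⟨δ * ρ⁻¹, hrel, ρ, Finset.mem_image.mpr ⟨_, Finset.mem_univ _, rfl⟩, ?_⟩
  rw [inv_mul_cancel_right]

/-- Induction principle on `SL(2, ℤ)` relative to `Γ₀(N)`: there are finite sets `G ⊆ Γ₀(N)` and `R`
such that a predicate on `SL(2, ℤ)` holds everywhere as soon as it holds on `R` and is stable under
left multiplication by elements of `G`. -/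
theorem sl2Z_induction_gamma0 (N : ℕ) [NeZero N] :
    ∃ (G R : Finset SL(2, ℤ)), (∀ g ∈ G, g ∈ Gamma0 N) ∧
      ∀ C : SL(2, ℤ) → Prop, (∀ ρ ∈ R, C ρ) → (∀ g ∈ G, ∀ δ, C δ → C (g * δ)) → ∀ δ, C δ := by
  classical
  obtain ⟨S, hSmem, hScl⟩ := Gamma0_exists_finite_generators N
  obtain ⟨R, hR⟩ := Gamma0_exists_coset_reps N
  refine ⟨S ∪ S.image (·⁻¹), R, ?_, ?_⟩
  · intro g hg
    rcases Finset.mem_union.mp hg with h | h
    · exact hSmem g h
    · obtain ⟨s, hs, rfl⟩ := Finset.mem_image.mp h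
      exact inv_mem (hSmem s hs)
  · intro C hCR hG δ
    obtain ⟨γ, hγ, ρ, hρR, rfl⟩ := hR δ
    rw [← hScl] at hγ
    induction hγ using Subgroup.closure_induction_left with
    | one => simpa using hCR ρ hρR
    | mul_left x hx y _ ih =>
      rw [mul_assoc]
      exact hG x (Finset.mem_union.mpr (Or.inl hx)) _ ih
    | inv_mul_cancel x hx y _ ih =>
      rw [mul_assoc]
      exact hG x⁻¹ (Finset.mem_union.mpr (Or.inr (Finset.mem_image.mpr ⟨x, hx, rfl⟩))) _ ih

end Fermat.Agent.S22
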