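import Mathlib

set_option autoImplicit false

namespace Fermat.Agent.S22

/-- Stability of a lattice of functionals under a generating set extends to the adjoined
`ℤ`-algebra. -/
theorem comp_mem_of_mem_adjoin {V : Type*} [AddCommGroup V] [Module ℂ V]
    (gens : Set (Module.End ℂ V))
    (Λ : Submodule ℤ (Module.Dual ℂ V))
    (hstab : ∀ t ∈ gens, ∀ l ∈ Λ, l ∘ₗ t ∈ Λ)
    {t : Module.End ℂ V} (ht : t ∈ Algebra.adjoin ℤ gens) {l : Module.Dual ℂ V} (hl : l ∈ Λ) :
    l ∘ₗ t ∈ Λ := by
  induction ht using Algebra.adjoin_induction generalizing l with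
  | mem x hx => exact hstab x hx l hl
  | algebraMap r =>
    have : l ∘ₗ (algebraMap ℤ (Module.End ℂ V) r) = r • l := by
      ext v
      simp
    rw [this]
    exact Λ.smul_mem r hl
  | add x y _ _ hx hy =>
    rw [LinearMap.comp_add]
    exact Λ.add_mem (hx hl) (hy hl)
  | mul x y _ _ hx hy =>
    have : l ∘ₗ (x * y) = (l ∘ₗ x) ∘ₗ y := rfl
    rw [this]
    exact hy (hx hl)

/-- Abstract finiteness lemma: if a `ℤ`-submodule `Λ` of the dual of `V` is finitely generated,
stable under precomposition with every generator and separates the points of `V`,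
then the `ℤ`-algebra generated by the generators is a finite `ℤ`-module. -/
theorem moduleFinite_adjoin_of_dual_lattice {V : Type*} [AddCommGroup V] [Module ℂ V]
    (gens : Set (Module.End ℂ V))
    (Λ : Submodule ℤ (Module.Dual ℂ V)) (hfg : Λ.FG)
    (hstab : ∀ t ∈ gens, ∀ l ∈ Λ, l ∘ₗ t ∈ Λ)
    (hsep : ∀ v : V, (∀ l ∈ Λ, l v = 0) → v = 0) :
    Module.Finite ℤ (Algebra.adjoin ℤ gens) := by
  classical
  have hfin : Module.Finite ℤ Λ := Module.Finite.iff_fg.mpr hfg
  have htf : IsAddTorsionFree (Module.Dual ℂ V) := .of_isTorsionFree ℂ _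
  have : Module.Free ℤ Λ := Module.free_of_finite_type_torsion_free'
  have : Module.Finite ℤ (Λ →ₗ[ℤ] Λ) := inferInstance
  -- the action map
  let Φ : (Algebra.adjoin ℤ gens) →ₗ[ℤ] (Λ →ₗ[ℤ] Λ) :=
    { toFun := fun t =>
        { toFun := fun l => ⟨(l : Module.Dual ℂ V) ∘ₗ (t : Module.End ℂ V),
            comp_mem_of_mem_adjoin gens Λ hstab t.2 l.2⟩
          map_add' := fun l l' => by
            apply Subtype.ext
            simp [LinearMap.add_comp]
          map_smul' := fun r l => by
            apply Subtype.ext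
            simp [LinearMap.smul_comp] }
      map_add' := fun t t' => by
        apply LinearMap.ext
        intro l
        apply Subtype.ext
        simp [LinearMap.comp_add]
      map_smul' := fun r t => by
        apply LinearMap.ext
        intro l
        apply Subtype.ext
        apply LinearMap.ext
        intro v
        simp }
  have hΦ : Function.Injective Φ := by
    rw [injective_iff_map_eq_zero]
    intro t ht
    apply Subtype.ext
    apply LinearMap.ext
    intro v
    apply hsep
    intro l hl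
    have h1 : Φ t ⟨l, hl⟩ = 0 := by rw [ht]; rfl
    have h2 : (l ∘ₗ (t : Module.End ℂ V)) = 0 := congrArg Subtype.val h1
    simpa using LinearMap.congr_fun h2 v
  exact Module.Finite.of_injective Φ hΦ

/-- variant: it suffices that `Λ` is contained in a f.g. submodule. -/
theorem moduleFinite_adjoin_of_dual_lattice' {V : Type*} [AddCommGroup V] [Module ℂ V]
    (gens : Set (Module.End ℂ V)) (Λ Λ' : Submodule ℤ (Module.Dual ℂ V)) (hle : Λ ≤ Λ')
    (hfg : Λ'.FG)
    (hstab : ∀ t ∈ gens, ∀ l ∈ Λ, l ∘ₗ t ∈ Λ)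
    (hsep : ∀ f : V, (∀ l ∈ Λ, l f = 0) → f = 0) :
    Module.Finite ℤ (Algebra.adjoin ℤ gens) := by
  have hfin' : Module.Finite ℤ Λ' := Module.Finite.iff_fg.mpr hfg
  have hnoeth : IsNoetherian ℤ Λ' := isNoetherian_of_isNoetherianRing_of_finite ℤ Λ'
  have hΛ : Λ.FG := by
    have h1 : (Λ.comap Λ'.subtype).FG := IsNoetherian.noetherian _
    have h2 : (Λ.comap Λ'.subtype).map Λ'.subtype = Λ := by
      rw [Submodule.map_comap_eq, Submodule.range_subtype]
      exact inf_eq_right.mpr hle
    rw [← h2]
    exact h1.map _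
  exact moduleFinite_adjoin_of_dual_lattice gens Λ hΛ hstab hsep

end Fermat.Agent.S22
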