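import Fermat.Agent.S22.Vanish
import Fermat.Prelude.Def_CuspForm_IntegralStructure
import Fermat.Prelude.Thm_CuspForm_mem_intLattice_of_mem_heckeAlgebra
import Fermat.Prelude.Thm_CuspForm_intLattice_fg

/-!
# S22 from the integral structure (route via S23 for all weights)

`moduleFinite_heckeAlgebra_of_hasIntegralStructure`:
if `S_k(Γ₀(N))` has an integral structure (for the given `k ≥ 1`), then the Hecke algebra is a
finite `ℤ`-module.  Also the trivial case where the space of cusp forms is zero.
-/

set_option autoImplicit false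

open CongruenceSubgroup

noncomputable section

namespace Fermat.Agent.S22

/-- If all cusp forms vanish, the Hecke algebra is (trivially) finite over `ℤ`. -/
theorem moduleFinite_heckeAlgebra_of_forall_eq_zero (N : ℕ) [NeZero N] (k : ℤ) (S : Set ℕ)
    (h : ∀ f : CuspForm (Gamma0 N) k, f = 0) :
    Module.Finite ℤ (CuspForm.heckeAlgebra N k S) := by
  have : Subsingleton (CuspForm (Gamma0 N) k) := ⟨fun a b => by rw [h a, h b]⟩
  have : Subsingleton (Module.End ℂ (CuspForm (Gamma0 N) k)) :=
    ⟨fun a b => LinearMap.ext fun x => Subsingleton.elim _ _⟩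
  have : Subsingleton (CuspForm.heckeAlgebra N k S) :=
    ⟨fun a b => Subtype.ext (Subsingleton.elim _ _)⟩
  exact Module.Finite.of_surjective (0 : ℤ →ₗ[ℤ] CuspForm.heckeAlgebra N k S)
    fun y => ⟨0, Subsingleton.elim _ _⟩

/-- The Hecke algebra is finite over `ℤ` in weight `≤ 1`. -/
theorem moduleFinite_heckeAlgebra_of_weight_le_one (N : ℕ) [NeZero N] {k : ℤ} (hk : k ≤ 1)
    (S : Set ℕ) : Module.Finite ℤ (CuspForm.heckeAlgebra N k S) :=
  moduleFinite_heckeAlgebra_of_forall_eq_zero N k S
    fun f => cuspForm_eq_zero_of_weight_le_one N hk f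

/-- The restriction of a Hecke operator to the integral lattice. -/
def latticeRestrictK (N : ℕ) [NeZero N] {k : ℤ} (hk : 1 ≤ k) (S : Set ℕ) :
    CuspForm.heckeAlgebra N k S →ₗ[ℤ] Module.End ℤ ↥(CuspForm.intLattice N k) where
  toFun t := LinearMap.restrict ((t : Module.End ℂ (CuspForm (Gamma0 N) k)).restrictScalars ℤ)
    (fun _f hf => CuspForm.mem_intLattice_of_mem_heckeAlgebra hk t.2 hf)
  map_add' _ _ := LinearMap.ext fun _ => Subtype.ext rfl
  map_smul' _ _ := LinearMap.ext fun _ => Subtype.ext rfl

theorem latticeRestrictK_injective (N : ℕ) [NeZero N] {k : ℤ} (hk : 1 ≤ k) (S : Set ℕ)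
    (hint : CuspForm.HasIntegralStructure N k) :
    Function.Injective (latticeRestrictK N hk S) := by
  rw [← LinearMap.ker_eq_bot, LinearMap.ker_eq_bot']
  intro t ht
  refine Subtype.ext (LinearMap.ext_on hint fun f hf => ?_)
  exact congrArg Subtype.val (LinearMap.congr_fun ht ⟨f, hf⟩)

/-- **S22 from the integral structure.** -/
theorem moduleFinite_heckeAlgebra_of_hasIntegralStructure (N : ℕ) [NeZero N] {k : ℤ}
    (hk : 1 ≤ k) (S : Set ℕ) (hint : CuspForm.HasIntegralStructure N k) :
    Module.Finite ℤ (CuspForm.heckeAlgebra N k S) := by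
  have : Module.Finite ℤ ↥(CuspForm.intLattice N k) :=
    Module.Finite.iff_fg.mpr (CuspForm.intLattice_fg N k)
  have : IsAddTorsionFree (CuspForm (Gamma0 N) k) := .of_isTorsionFree ℂ _
  have : Module.Free ℤ ↥(CuspForm.intLattice N k) := Module.free_of_finite_type_torsion_free'
  exact Module.Finite.of_injective (latticeRestrictK N hk S)
    (latticeRestrictK_injective N hk S hint)

end Fermat.Agent.S22
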