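import Fermat.Agent.S22.Hecke
import Fermat.Agent.S22.Abstract
import Fermat.Agent.S22.FromIntegral

/-!
# S22: the period lattice is Hecke stable and separating; the Hecke algebra is finite over `ℤ`.
-/

set_option autoImplicit false

namespace Fermat.Agent.S22

open UpperHalfPlane Filter Topology CongruenceSubgroup
open scoped MatrixGroups ModularForm Manifold

section

variable {N : ℕ} [NeZero N] {m : ℕ}

theorem upperZ_eq (a b d : ℤ) (ha : 0 < a) (hd : 0 < d) (x y z : ℝ) (h : x * z ≠ 0)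
    (hx : (a : ℝ) = x) (hy : (b : ℝ) = y) (hz : (d : ℝ) = z) :
    upperZ a b d ha hd = ModularForm.upperTriangularGL x y z h := by
  subst hx hy hz
  rfl

/-- Index data for the Hecke operator `T_p`: `i < p ↦ [1, i; 0, p]`, `i = p ↦ [p, 0; 0, 1]`. -/
def heckeA (p i : ℕ) : ℤ := if i < p then 1 else p
def heckeB (p i : ℕ) : ℤ := if i < p then i else 0
def heckeD (p i : ℕ) : ℤ := if i < p then p else 1

theorem heckeA_pos {p : ℕ} (hp : 0 < p) (i : ℕ) : 0 < heckeA p i := by
  unfold heckeA; split_ifs <;> simp [hp]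

theorem heckeD_pos {p : ℕ} (hp : 0 < p) (i : ℕ) : 0 < heckeD p i := by
  unfold heckeD; split_ifs <;> simp [hp]

theorem upperZ_hecke_of_lt {p : ℕ} (hp : 0 < p) {i : ℕ} (hi : i < p) :
    upperZ (heckeA p i) (heckeB p i) (heckeD p i) (heckeA_pos hp i) (heckeD_pos hp i) =
      ModularForm.heckeMatrix p i := by
  rw [heckeMatrix_eq_upperTriangularGL hp]
  apply upperZ_eq <;> simp [heckeA, heckeB, heckeD, hi]

theorem upperZ_hecke_self {p : ℕ} (hp : 0 < p) :
    upperZ (heckeA p p) (heckeB p p) (heckeD p p) (heckeA_pos hp p) (heckeD_pos hp p) =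
      ModularForm.heckeDiagMatrix p := by
  rw [heckeDiagMatrix_eq_upperTriangularGL hp]
  apply upperZ_eq <;> simp [heckeA, heckeB, heckeD]

theorem heckeU_eq_sum (k : ℤ) {p : ℕ} (hp : 0 < p) (f : ℍ → ℂ) :
    ModularForm.heckeU k p f = ∑ i ∈ Finset.range p,
      f ∣[k] upperZ (heckeA p i) (heckeB p i) (heckeD p i) (heckeA_pos hp i) (heckeD_pos hp i) := by
  rw [ModularForm.heckeU_def]
  refine Finset.sum_congr rfl fun i hi => ?_
  rw [upperZ_hecke_of_lt hp (Finset.mem_range.mp hi)]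

theorem heckeT_eq_sum (k : ℤ) {p : ℕ} (hp : 0 < p) (f : ℍ → ℂ) :
    ModularForm.heckeT k p f = ∑ i ∈ Finset.range (p + 1),
      f ∣[k] upperZ (heckeA p i) (heckeB p i) (heckeD p i) (heckeA_pos hp i) (heckeD_pos hp i) := by
  rw [ModularForm.heckeT_eq_heckeU_add, Finset.sum_range_succ, heckeU_eq_sum k hp,
    upperZ_hecke_self hp]

/-- Hecke stability on generators of the lattice. -/
theorem period_comp_mem_of_coe_eq_sum {ι : Type*} (s : Finset ι) (a b d : ι → ℤ)
    (ha : ∀ i, 0 < a i) (hd : ∀ i, 0 < d i)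
    (t : Module.End ℂ (CuspForm (Gamma0 N) ((m : ℤ) + 2)))
    (ht : ∀ f : CuspForm (Gamma0 N) ((m : ℤ) + 2), (⇑(t f) : ℍ → ℂ) =
      ∑ i ∈ s, ⇑f ∣[(m : ℤ) + 2] upperZ (a i) (b i) (d i) (ha i) (hd i))
    (l : Module.Dual ℂ (CuspForm (Gamma0 N) ((m : ℤ) + 2))) (hl : l ∈ periodLattice N m) :
    l ∘ₗ t ∈ periodLattice N m := by
  induction hl using Submodule.span_induction with
  | mem l hl =>
    obtain ⟨δ, X, Y, rfl⟩ := hl
    have : period N m δ X Y ∘ₗ t = ∑ i ∈ s,
        period N m (upperDecomp (a i) (b i) (d i) (ha i) (hd i) δ).δ'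
          ((upperDecomp (a i) (b i) (d i) (ha i) (hd i) δ).a' * X +
            (upperDecomp (a i) (b i) (d i) (ha i) (hd i) δ).b' * Y)
          ((upperDecomp (a i) (b i) (d i) (ha i) (hd i) δ).d' * Y) := by
      ext f
      rw [LinearMap.comp_apply, period_apply_of_coe_eq_sum s a b d ha hd f (t f) (ht f) δ X Y,
        LinearMap.sum_apply]
    rw [this]
    exact Submodule.sum_mem _ fun i _ => period_mem_periodLattice N m _ _ _
  | zero => simp
  | add x y _ _ hx hy =>
    rw [LinearMap.add_comp]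
    exact Submodule.add_mem _ hx hy
  | smul c x _ hx =>
    have : (c • x) ∘ₗ t = c • (x ∘ₗ t) := by
      ext f; simp
    rw [this]
    exact Submodule.smul_mem _ _ hx

theorem periodLattice_stable (S : Set ℕ) (t : Module.End ℂ (CuspForm (Gamma0 N) ((m : ℤ) + 2)))
    (ht : t ∈ CuspForm.heckeGenerators N ((m : ℤ) + 2) S)
    (l : Module.Dual ℂ (CuspForm (Gamma0 N) ((m : ℤ) + 2))) (hl : l ∈ periodLattice N m) :
    l ∘ₗ t ∈ periodLattice N m := by
  rcases ht with ⟨ℓ, hℓ, hℓN, -, rfl⟩ | ⟨q, hqN, hq, -, rfl⟩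
  · exact period_comp_mem_of_coe_eq_sum (Finset.range (ℓ + 1)) (heckeA ℓ) (heckeB ℓ) (heckeD ℓ)
      (heckeA_pos hℓ.pos) (heckeD_pos hℓ.pos) _
      (fun f => by rw [CuspForm.coe_heckeTLin_apply, heckeT_eq_sum _ hℓ.pos]) l hl
  · exact period_comp_mem_of_coe_eq_sum (Finset.range q) (heckeA q) (heckeB q) (heckeD q)
      (heckeA_pos hq.pos) (heckeD_pos hq.pos) _
      (fun f => by rw [CuspForm.coe_heckeULin_apply, heckeU_eq_sum _ hq.pos]) l hl

theorem periodLattice_separating (f : CuspForm (Gamma0 N) ((m : ℤ) + 2))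
    (hf : ∀ l ∈ periodLattice N m, l f = 0) : f = 0 := by
  refine eq_zero_of_periods_eq_zero N m f (fun δ => chainOf f δ) (fun δ => chainOf_isChain f δ)
    (fun δ => chainOf_zero f δ) (fun δ X Y => ?_)
  have := hf _ (period_mem_periodLattice N m δ X Y)
  rw [period_apply_I] at this
  simpa [actX, actY] using this

end

/-- **S22**: the Hecke algebra is a finitely generated `ℤ`-module. -/
theorem moduleFinite_heckeAlgebra (N : ℕ) [NeZero N] (k : ℤ) (S : Set ℕ) :
    Module.Finite ℤ (CuspForm.heckeAlgebra N k S) := by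
  by_cases hk : k ≤ 1
  · exact moduleFinite_heckeAlgebra_of_weight_le_one N hk S
  · obtain ⟨m, rfl⟩ : ∃ m : ℕ, k = (m : ℤ) + 2 :=
      ⟨(k - 2).toNat, by rw [Int.toNat_of_nonneg (by omega)]; ring⟩
    obtain ⟨Λ', hfg, hle⟩ := exists_fg_periodLattice_le N m
    exact moduleFinite_adjoin_of_dual_lattice' (CuspForm.heckeGenerators N ((m : ℤ) + 2) S)
      (periodLattice N m) Λ' hle hfg (periodLattice_stable S) periodLattice_separating

end Fermat.Agent.S22
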