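import Fermat.Agent.S22.Defs

/-!
# S22, piece P3: calculus of `HasDerivH` (primitives on the upper half-plane) and the
Möbius chain rule.  (helper21)
-/

set_option autoImplicit false

namespace Fermat.Agent.S22

open UpperHalfPlane Filter Topology CongruenceSubgroup
open scoped MatrixGroups ModularForm Manifold

theorem HasDerivH.comp_smul {G g : ℍ → ℂ} (h : HasDerivH G g) (M : GL (Fin 2) ℝ)
    (hM : 0 < M.det.val) :
    HasDerivH (fun τ => G (M • τ))
      (fun τ => g (M • τ) * ((M.det.val : ℝ) : ℂ) / (denom M τ) ^ 2) := fun τ => by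
  have hdet : M.det.val = M.val.det := Matrix.GeneralLinearGroup.val_det_apply M
  have hM' : 0 < M.val.det := hdet ▸ hM
  have h_smul : HasDerivAt (fun w ↦ ↑(M • ofComplex w) : ℂ → ℂ)
      ((M.val.det : ℂ) / denom M τ ^ 2) ↑τ := (hasStrictDerivAt_smul hM' τ).hasDerivAt
  have h_F : HasDerivAt (G ∘ ofComplex) (g (M • τ))
      ((fun w ↦ ↑(M • ofComplex w) : ℂ → ℂ) ↑τ) := by
    simpa using h (M • τ)
  have := h_F.comp (τ : ℂ) h_smul
  have e : g (M • τ) * ((M.det.val : ℝ) : ℂ) / (denom M τ) ^ 2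
      = g (M • τ) * ((M.val.det : ℂ) / denom M τ ^ 2) := by
    rw [hdet, mul_div_assoc]
  show HasDerivAt _ (g (M • τ) * ((M.det.val : ℝ) : ℂ) / (denom M τ) ^ 2) _
  rw [e]
  refine this.congr_of_eventuallyEq ?_
  filter_upwards with w
  simp [Function.comp]

theorem hasDerivH_coe : HasDerivH (fun τ : ℍ => (τ : ℂ)) (fun _ => 1) := fun τ => by
  have h1 : HasDerivAt (fun z : ℂ => z) 1 (τ : ℂ) := hasDerivAt_id _
  refine h1.congr_of_eventuallyEq ?_
  filter_upwards [isOpen_upperHalfPlaneSet.mem_nhds τ.im_pos] with w hw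
  simp [Function.comp, ofComplex_apply_of_im_pos hw]

theorem hasDerivH_const (c : ℂ) : HasDerivH (fun _ : ℍ => c) (fun _ => 0) := fun τ => by
  have : HasDerivAt (fun _ : ℂ => c) 0 (τ : ℂ) := hasDerivAt_const _ _
  exact this

theorem HasDerivH.add {F f G g : ℍ → ℂ} (hF : HasDerivH F f) (hG : HasDerivH G g) :
    HasDerivH (fun τ => F τ + G τ) (fun τ => f τ + g τ) := fun τ => by
  have := (hF τ).add (hG τ)
  exact this

theorem HasDerivH.sub {F f G g : ℍ → ℂ} (hF : HasDerivH F f) (hG : HasDerivH G g) :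
    HasDerivH (fun τ => F τ - G τ) (fun τ => f τ - g τ) := fun τ => by
  have := (hF τ).sub (hG τ)
  exact this

theorem HasDerivH.mul {F f G g : ℍ → ℂ} (hF : HasDerivH F f) (hG : HasDerivH G g) :
    HasDerivH (fun τ => F τ * G τ) (fun τ => f τ * G τ + F τ * g τ) := fun τ => by
  have := (hF τ).mul (hG τ)
  simp only [Function.comp_apply, ofComplex_apply] at this
  exact this

theorem HasDerivH.const_mul {F f : ℍ → ℂ} (c : ℂ) (hF : HasDerivH F f) :
    HasDerivH (fun τ => c * F τ) (fun τ => c * f τ) := fun τ => by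
  have := (hF τ).const_mul c
  exact this

theorem HasDerivH.pow {F f : ℍ → ℂ} (hF : HasDerivH F f) (n : ℕ) :
    HasDerivH (fun τ => F τ ^ (n + 1)) (fun τ => (n + 1) * F τ ^ n * f τ) := fun τ => by
  have := (hF τ).pow (n + 1)
  have e : ((n + 1 : ℕ) : ℂ) * (F ∘ ofComplex) (τ : ℂ) ^ (n + 1 - 1) * f τ
      = (n + 1) * F τ ^ n * f τ := by
    simp
  rw [e] at this
  exact this

theorem HasDerivH.differentiableOn {F f : ℍ → ℂ} (hF : HasDerivH F f) :
    DifferentiableOn ℂ (F ∘ ofComplex) upperHalfPlaneSet := fun z hz => by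
  have := hF ⟨z, hz⟩
  exact this.differentiableAt.differentiableWithinAt

theorem HasDerivH.mdifferentiable {F f : ℍ → ℂ} (hF : HasDerivH F f) : MDiff F :=
  UpperHalfPlane.mdifferentiable_iff.mpr hF.differentiableOn

theorem HasDerivH.continuous {F f : ℍ → ℂ} (hF : HasDerivH F f) : Continuous F :=
  hF.mdifferentiable.continuous

theorem HasDerivH.neg {F f : ℍ → ℂ} (hF : HasDerivH F f) :
    HasDerivH (fun τ => -F τ) (fun τ => -f τ) := fun τ => by
  have := (hF τ).neg
  exact this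

theorem HasDerivH.congr {F f g : ℍ → ℂ} (hF : HasDerivH F f) (h : ∀ τ, f τ = g τ) :
    HasDerivH F g := fun τ => h τ ▸ hF τ

/-- Chain rule for the action of `SL(2, ℤ)` on `ℍ`: if `F' = f` then `(F ∘ γ)' = f ∣[2] γ`. -/
theorem HasDerivH.comp_smul_SL {F f : ℍ → ℂ} (hF : HasDerivH F f) (γ : SL(2, ℤ)) :
    HasDerivH (fun w => F (γ • w)) (f ∣[(2 : ℤ)] γ) := by
  have hdet : (γ : GL (Fin 2) ℝ).det.val = 1 := by simp
  have h := hF.comp_smul (γ : GL (Fin 2) ℝ) (by rw [hdet]; exact one_pos)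
  refine h.congr (fun τ => ?_)
  rw [ModularForm.SL_slash_apply, hdet]
  simp only [Complex.ofReal_one, mul_one]
  rw [zpow_neg, div_eq_mul_inv]
  rfl

end Fermat.Agent.S22
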