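import Fermat.Agent.S22.Defs

/-!
# S22, pieces P1+P2: primitives in the class {holomorphic, `h`-periodic, zero at `i∞`}

Main declarations (all in namespace `Fermat.Agent.S22`):

* `CuspClass h g` : `g : ℍ → ℂ` is holomorphic, `h`-periodic and zero at `i∞`.
* `CuspClass.exists_primitive` : existence of a primitive in the same class.
* `CuspClass.exists_isChain` : existence of a chain of primitives.
* `exists_isChain_of_cuspForm` : chains exist for cusp forms on arithmetic subgroups.
* `HasDerivH.eq_of_deriv_zero`, `IsChain.eq_of_zero_eq` : uniqueness.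
* `IsChain.add`, `IsChain.const_smul`, `IsChain.sum`, `IsChain.shift`.
-/

set_option autoImplicit false

open Complex Filter Function Metric Set
open UpperHalfPlane hiding I
open scoped Real Topology Manifold MatrixGroups ModularForm

noncomputable section

namespace Fermat.Agent.S22

/-- The class of functions on `ℍ` which are holomorphic, `h`-periodic and zero at `i∞`. -/
structure CuspClass (h : ℝ) (g : ℍ → ℂ) : Prop where
  holo : MDiff g
  periodic : Function.Periodic (g ∘ ofComplex) h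
  zero : IsZeroAtImInfty g

theorem HasDerivH.mdiff_aux {G g : ℍ → ℂ} (hG : HasDerivH G g) : MDiff G :=
  fun τ => UpperHalfPlane.mdifferentiableAt_iff.mpr (hG τ).differentiableAt

/-- Auxiliary: the function `τ ↦ Ψ (qParam h τ)` on `ℍ`. -/
def compQ (h : ℝ) (Ψ : ℂ → ℂ) (τ : ℍ) : ℂ := Ψ (Function.Periodic.qParam h τ)

theorem compQ_comp_ofComplex_eventuallyEq (h : ℝ) (Ψ : ℂ → ℂ) (τ : ℍ) :
    (compQ h Ψ ∘ ofComplex) =ᶠ[𝓝 (τ : ℂ)] fun z => Ψ (Function.Periodic.qParam h z) := by
  filter_upwards [isOpen_upperHalfPlaneSet.mem_nhds τ.im_pos] with z hz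
  simp only [Function.comp_apply, compQ]
  rw [ofComplex_apply_of_im_pos hz]

theorem periodic_compQ (h : ℝ) (hh : h ≠ 0) (Ψ : ℂ → ℂ) :
    Function.Periodic (compQ h Ψ ∘ ofComplex) h := by
  intro w
  by_cases hw : 0 < im w
  · have hw' : 0 < im (w + h) := by simpa using hw
    simp only [Function.comp_apply, compQ]
    rw [ofComplex_apply_of_im_pos hw, ofComplex_apply_of_im_pos hw']
    congr 1
    simp only [Function.Periodic.qParam]
    rw [mul_add, add_div, Complex.exp_add]
    have hh' : (h : ℂ) ≠ 0 := by exact_mod_cast hh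
    have : (2 * (π : ℂ) * I * (h : ℂ) / (h : ℂ)) = 2 * π * I := by
      field_simp
    rw [this, Complex.exp_two_pi_mul_I, mul_one]
  · have hw1 : im w ≤ 0 := not_lt.mp hw
    have hw' : im (w + h) ≤ 0 := by simpa using hw1
    simp only [Function.comp_apply]
    rw [ofComplex_apply_eq_of_im_nonpos hw' hw1]

theorem hasDerivAt_compQ {h : ℝ} {Ψ : ℂ → ℂ} {ψ : ℂ → ℂ}
    (hΨ : ∀ q ∈ ball (0 : ℂ) 1, HasDerivAt Ψ (ψ q) q) (hh : 0 < h) (τ : ℍ) :
    HasDerivAt (compQ h Ψ ∘ ofComplex)
      (ψ (Function.Periodic.qParam h τ) * (Function.Periodic.qParam h τ * (2 * π * I / h)))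
      (τ : ℂ) := by
  have hq : Function.Periodic.qParam h (τ : ℂ) ∈ ball (0 : ℂ) 1 := by
    rw [mem_ball_zero_iff]
    exact Function.Periodic.norm_qParam_lt_one hh τ.im_pos
  have qdiff : HasDerivAt (Function.Periodic.qParam h)
      (Function.Periodic.qParam h τ * (2 * π * I / h)) (τ : ℂ) := by
    simpa only [id_eq, mul_one] using! (((hasDerivAt_id (τ : ℂ)).const_mul _).div_const _).cexp
  have := (hΨ _ hq).comp (τ : ℂ) qdiff
  exact this.congr_of_eventuallyEq (compQ_comp_ofComplex_eventuallyEq h Ψ τ)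

theorem isZeroAtImInfty_compQ {h : ℝ} (hh : 0 < h) {Ψ : ℂ → ℂ} (hΨ : ContinuousAt Ψ 0)
    (h0 : Ψ 0 = 0) : IsZeroAtImInfty (compQ h Ψ) := by
  have h1 : Tendsto (fun τ : ℍ => Function.Periodic.qParam h τ) atImInfty (𝓝 0) :=
    UpperHalfPlane.qParam_tendsto_atImInfty hh
  have h2 : Tendsto Ψ (𝓝 0) (𝓝 0) := by simpa [h0] using hΨ.tendsto
  exact h2.comp h1

/-- **P1 (existence).** A function in the cusp class has a primitive in the cusp class. -/
theorem CuspClass.exists_primitive {h : ℝ} (hh : 0 < h) {g : ℍ → ℂ} (hg : CuspClass h g) :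
    ∃ G : ℍ → ℂ, CuspClass h G ∧ HasDerivH G g := by
  set φ : ℂ → ℂ := cuspFunction h g with hφ
  have hφd : DifferentiableOn ℂ φ (ball 0 1) :=
    differentiableOn_cuspFunction_ball hh hg.periodic hg.holo hg.zero.isBoundedAtImInfty
  have hφ0 : φ 0 = 0 := hg.zero.cuspFunction_apply_zero hh
  have hball : ball (0 : ℂ) 1 ∈ 𝓝 (0 : ℂ) := ball_mem_nhds 0 one_pos
  have hψd : DifferentiableOn ℂ (dslope φ 0) (ball 0 1) :=
    (Complex.differentiableOn_dslope hball).mpr hφd
  obtain ⟨Ψ, hΨ0, hΨ⟩ := (hψd.isExactOn_ball).with_val_at 0 0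
  have hΨc : ContinuousAt Ψ 0 := (hΨ 0 (mem_ball_self one_pos)).continuousAt
  have hc : (h : ℂ) ≠ 0 := by exact_mod_cast hh.ne'
  have hder : ∀ τ : ℍ, HasDerivAt (compQ h (fun q => (h / (2 * π * I)) * Ψ q) ∘ ofComplex)
      (g τ) (τ : ℂ) := by
    intro τ
    have hΨ' : ∀ q ∈ ball (0 : ℂ) 1,
        HasDerivAt (fun q => (h / (2 * π * I)) * Ψ q) ((h / (2 * π * I)) * dslope φ 0 q) q :=
      fun q hq => (hΨ q hq).const_mul _
    have := hasDerivAt_compQ hΨ' hh τ
    convert this using 1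
    have hq0 : Function.Periodic.qParam h (τ : ℂ) ≠ 0 := Function.Periodic.qParam_ne_zero _
    rw [dslope_of_ne _ hq0, slope_def_field, hφ0, sub_zero, sub_zero]
    have : φ (Function.Periodic.qParam h τ) = g τ :=
      eq_cuspFunction τ hh.ne' hg.periodic
    rw [this]
    field_simp
  refine ⟨compQ h (fun q => (h / (2 * π * I)) * Ψ q), ⟨?_, ?_, ?_⟩, hder⟩
  · exact HasDerivH.mdiff_aux hder
  · exact periodic_compQ h hh.ne' _
  · refine isZeroAtImInfty_compQ hh (continuousAt_const.mul hΨc) ?_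
    simp [hΨ0]

/-- Constancy of a function with zero derivative on `ℍ`. -/
theorem HasDerivH.eq_of_deriv_zero {F : ℍ → ℂ} (h : HasDerivH F 0) (τ τ' : ℍ) : F τ = F τ' := by
  have hopen : IsOpen {z : ℂ | 0 < z.im} := isOpen_upperHalfPlaneSet
  have hconn : IsPreconnected {z : ℂ | 0 < z.im} := (convex_halfSpace_im_gt 0).isPreconnected
  have hd : DifferentiableOn ℂ (F ∘ ofComplex) {z : ℂ | 0 < z.im} := fun z hz =>
    ((h ⟨z, hz⟩).differentiableAt).differentiableWithinAt
  have hd' : Set.EqOn (deriv (F ∘ ofComplex)) 0 {z : ℂ | 0 < z.im} := fun z hz =>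
    (h ⟨z, hz⟩).deriv
  have := hopen.is_const_of_deriv_eq_zero hconn hd hd' (x := (τ : ℂ)) (y := (τ' : ℂ))
    τ.im_pos τ'.im_pos
  simpa using this

theorem HasDerivH.sub_aux {F f G g : ℍ → ℂ} (hF : HasDerivH F f) (hG : HasDerivH G g) :
    HasDerivH (F - G) (f - g) := fun τ => by
  have := (hF τ).sub (hG τ)
  exact this

theorem HasDerivH.add_aux {F f G g : ℍ → ℂ} (hF : HasDerivH F f) (hG : HasDerivH G g) :
    HasDerivH (F + G) (f + g) := fun τ => by
  have := (hF τ).add (hG τ)
  exact this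

theorem HasDerivH.const_smul_aux {F f : ℍ → ℂ} (hF : HasDerivH F f) (c : ℂ) :
    HasDerivH (c • F) (c • f) := fun τ => by
  have := (hF τ).const_smul c
  exact this

/-- **P2 (uniqueness).** Two primitives of the same function which both vanish at `i∞`
are equal. -/
theorem HasDerivH.unique {G₁ G₂ g : ℍ → ℂ} (h₁ : HasDerivH G₁ g) (h₂ : HasDerivH G₂ g)
    (z₁ : IsZeroAtImInfty G₁) (z₂ : IsZeroAtImInfty G₂) : G₁ = G₂ := by
  have hd : HasDerivH (G₁ - G₂) 0 := by
    have := h₁.sub_aux h₂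
    simpa using this
  have hz : Tendsto (G₁ - G₂) atImInfty (𝓝 0) := by
    have := Tendsto.sub z₁ z₂
    rw [sub_zero] at this
    exact this
  funext τ
  have hconst : (G₁ - G₂) = fun _ => (G₁ - G₂) τ := by
    funext τ'
    exact hd.eq_of_deriv_zero τ' τ
  rw [hconst] at hz
  have h0 : (G₁ - G₂) τ = 0 := tendsto_nhds_unique tendsto_const_nhds hz
  simpa [sub_eq_zero] using h0

theorem IsChain.eq_of_zero_eq {G G' : ℕ → ℍ → ℂ} (hG : IsChain G) (hG' : IsChain G')
    (h : G 0 = G' 0) : G = G' := by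
  funext i
  induction i with
  | zero => exact h
  | succ n ih =>
    have h1 := hG.hasDeriv n
    have h2 := hG'.hasDeriv n
    rw [← ih] at h2
    exact h1.unique h2 (hG.zero n) (hG'.zero n)

theorem IsChain.add {G G' : ℕ → ℍ → ℂ} (hG : IsChain G) (hG' : IsChain G') :
    IsChain (fun i => G i + G' i) where
  hasDeriv i := (hG.hasDeriv i).add_aux (hG'.hasDeriv i)
  zero i := by
    have := Tendsto.add (hG.zero i) (hG'.zero i)
    rw [add_zero] at this
    exact this

theorem IsChain.const_smul {G : ℕ → ℍ → ℂ} (hG : IsChain G) (c : ℂ) :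
    IsChain (fun i => c • G i) where
  hasDeriv i := (hG.hasDeriv i).const_smul_aux c
  zero i := by
    have := Tendsto.const_smul (hG.zero i) c
    rw [smul_zero] at this
    exact this

theorem isChain_zero : IsChain (fun _ => (0 : ℍ → ℂ)) where
  hasDeriv i := fun τ => by
    have : ((0 : ℍ → ℂ) ∘ ofComplex) = fun _ => (0 : ℂ) := rfl
    rw [this]
    exact hasDerivAt_const _ _
  zero i := tendsto_const_nhds

theorem IsChain.sum {ι : Type*} (s : Finset ι) {G : ι → ℕ → ℍ → ℂ}
    (hG : ∀ j ∈ s, IsChain (G j)) :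
    IsChain (fun i => ∑ j ∈ s, G j i) := by
  classical
  induction s using Finset.induction_on with
  | empty => simpa using isChain_zero
  | insert a s ha ih =>
    have h1 : IsChain (G a) := hG a (Finset.mem_insert_self a s)
    have h2 : IsChain (fun i => ∑ j ∈ s, G j i) :=
      ih (fun j hj => hG j (Finset.mem_insert_of_mem hj))
    have := h1.add h2
    simpa [Finset.sum_insert ha] using this

theorem IsChain.shift {G : ℕ → ℍ → ℂ} (hG : IsChain G) : IsChain (fun i => G (i + 1)) where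
  hasDeriv i := hG.hasDeriv (i + 1)
  zero i := hG.zero (i + 1)

/-- Existence of a chain starting from a function in the cusp class; all members of the chain
are again in the cusp class. -/
theorem CuspClass.exists_isChain {h : ℝ} (hh : 0 < h) {g : ℍ → ℂ} (hg : CuspClass h g) :
    ∃ G : ℕ → ℍ → ℂ, IsChain G ∧ G 0 = g ∧ ∀ i, CuspClass h (G i) := by
  classical
  -- build the sequence in the subtype of cusp class functions
  let step : {f : ℍ → ℂ // CuspClass h f} → {f : ℍ → ℂ // CuspClass h f} := fun f =>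
    ⟨(f.2.exists_primitive hh).choose, (f.2.exists_primitive hh).choose_spec.1⟩
  have hstep : ∀ f : {f : ℍ → ℂ // CuspClass h f}, HasDerivH (step f).1 f.1 := fun f =>
    (f.2.exists_primitive hh).choose_spec.2
  let seq : ℕ → {f : ℍ → ℂ // CuspClass h f} := fun n => step^[n] ⟨g, hg⟩
  refine ⟨fun n => (seq n).1, ⟨fun i => ?_, fun i => ?_⟩, rfl, fun i => (seq i).2⟩
  · have : seq (i + 1) = step (seq i) := Function.iterate_succ_apply' step i _
    show HasDerivH (seq (i + 1)).1 (seq i).1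
    rw [this]
    exact hstep _
  · exact (seq (i + 1)).2.zero

/-- A cusp form on an arithmetic subgroup is in the cusp class for some positive period. -/
theorem exists_cuspClass_of_cuspForm {Γ : Subgroup (GL (Fin 2) ℝ)} [Γ.IsArithmetic] {k : ℤ}
    (f : CuspForm Γ k) : ∃ h : ℝ, 0 < h ∧ CuspClass h ⇑f := by
  have hh : 0 < Γ.strictWidthInfty := Γ.strictWidthInfty_pos_iff.mpr Fact.out
  have hΓ : Γ.strictWidthInfty ∈ Γ.strictPeriods := Γ.strictWidthInfty_mem_strictPeriods
  refine ⟨Γ.strictWidthInfty, hh, ⟨CuspFormClass.holo f, ?_, CuspFormClass.zero_at_infty f⟩⟩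
  exact SlashInvariantFormClass.periodic_comp_ofComplex f hΓ

theorem exists_isChain_of_cuspForm {Γ : Subgroup (GL (Fin 2) ℝ)} [Γ.IsArithmetic] {k : ℤ}
    (f : CuspForm Γ k) : ∃ G : ℕ → ℍ → ℂ, IsChain G ∧ G 0 = ⇑f := by
  obtain ⟨h, hh, hf⟩ := exists_cuspClass_of_cuspForm f
  obtain ⟨G, hG, hG0, -⟩ := hf.exists_isChain hh
  exact ⟨G, hG, hG0⟩

end Fermat.Agent.S22
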