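import Fermat.Agent.S22.Defs
import Fermat.Agent.S22.Moebius

/-!
# S22, piece P9: upper triangular matrices  (helper6)

Formulas for `ModularForm.upperTriangularGL a b d` (`a, d > 0`): action on `ℍ`, slash action,
transport of chains of primitives, and the Hecke matrices as instances.
-/

set_option autoImplicit false

namespace Fermat.Agent.S22

open UpperHalfPlane Filter Topology CongruenceSubgroup
open scoped MatrixGroups ModularForm Manifold

theorem det_upperTriangularGL (a b d : ℝ) (had : a * d ≠ 0) :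
    ((ModularForm.upperTriangularGL a b d had).det : ℝ) = a * d := by
  rw [Matrix.GeneralLinearGroup.val_det_apply, ModularForm.val_upperTriangularGL,
    Matrix.det_fin_two_of]
  ring

theorem det_upperTriangularGL_pos (a b d : ℝ) (ha : 0 < a) (hd : 0 < d) :
    0 < ((ModularForm.upperTriangularGL a b d (mul_pos ha hd).ne').det : ℝ) := by
  rw [det_upperTriangularGL]; exact mul_pos ha hd

theorem denom_upperTriangularGL (a b d : ℝ) (had : a * d ≠ 0) (τ : ℍ) :
    denom (ModularForm.upperTriangularGL a b d had) τ = d := by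
  simp [UpperHalfPlane.denom, ModularForm.val_upperTriangularGL]

theorem num_upperTriangularGL (a b d : ℝ) (had : a * d ≠ 0) (τ : ℍ) :
    num (ModularForm.upperTriangularGL a b d had) τ = a * τ + b := by
  simp [UpperHalfPlane.num, ModularForm.val_upperTriangularGL]

theorem σ_upperTriangularGL (a b d : ℝ) (ha : 0 < a) (hd : 0 < d) :
    UpperHalfPlane.σ (ModularForm.upperTriangularGL a b d (mul_pos ha hd).ne') = .refl ℝ ℂ := by
  rw [UpperHalfPlane.σ, if_pos (det_upperTriangularGL_pos a b d ha hd)]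

theorem coe_upperTriangularGL_smul (a b d : ℝ) (ha : 0 < a) (hd : 0 < d) (τ : ℍ) :
    ((ModularForm.upperTriangularGL a b d (mul_pos ha hd).ne' • τ : ℍ) : ℂ) = (a * τ + b) / d := by
  rw [UpperHalfPlane.coe_smul_of_det_pos (det_upperTriangularGL_pos a b d ha hd),
    num_upperTriangularGL, denom_upperTriangularGL]

theorem im_upperTriangularGL_smul (a b d : ℝ) (ha : 0 < a) (hd : 0 < d) (τ : ℍ) :
    (ModularForm.upperTriangularGL a b d (mul_pos ha hd).ne' • τ : ℍ).im = a / d * τ.im := by
  have h := coe_upperTriangularGL_smul a b d ha hd τ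
  have h2 : ((ModularForm.upperTriangularGL a b d (mul_pos ha hd).ne' • τ : ℍ) : ℂ).im =
      (((a : ℂ) * τ + b) / d).im := by rw [h]
  rw [UpperHalfPlane.coe_im] at h2
  rw [h2]
  have hd' : (d : ℂ) ≠ 0 := by exact_mod_cast hd.ne'
  have : ((a : ℂ) * τ + b) / d = ((a / d : ℝ) : ℂ) * τ + ((b / d : ℝ) : ℂ) := by
    push_cast; field_simp
  rw [this]
  simp [Complex.add_im, Complex.mul_im]

theorem slash_upperTriangularGL (k : ℤ) (a b d : ℝ) (ha : 0 < a) (hd : 0 < d) (f : ℍ → ℂ)
    (τ : ℍ) :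
    (f ∣[k] ModularForm.upperTriangularGL a b d (mul_pos ha hd).ne') τ
      = (a : ℂ) ^ (k - 1) * (d : ℂ)⁻¹ *
          f (ModularForm.upperTriangularGL a b d (mul_pos ha hd).ne' • τ) := by
  have ha' : (a : ℂ) ≠ 0 := by exact_mod_cast ha.ne'
  have hd' : (d : ℂ) ≠ 0 := by exact_mod_cast hd.ne'
  rw [ModularForm.slash_apply, σ_upperTriangularGL a b d ha hd, det_upperTriangularGL,
    denom_upperTriangularGL]
  simp only [ContinuousAlgEquiv.refl_apply]
  rw [abs_of_pos (mul_pos ha hd)]
  push_cast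
  have hdd : (d : ℂ) ^ (k - 1) * (d : ℂ) ^ (-k) = (d : ℂ)⁻¹ := by
    rw [← zpow_add₀ hd', show k - 1 + -k = -1 by ring, zpow_neg_one]
  rw [mul_zpow]
  calc f (ModularForm.upperTriangularGL a b d (mul_pos ha hd).ne' • τ) *
        ((a : ℂ) ^ (k - 1) * (d : ℂ) ^ (k - 1)) * (d : ℂ) ^ (-k)
      = (a : ℂ) ^ (k - 1) * ((d : ℂ) ^ (k - 1) * (d : ℂ) ^ (-k)) *
          f (ModularForm.upperTriangularGL a b d (mul_pos ha hd).ne' • τ) := by ring
    _ = _ := by rw [hdd]

/-- transport of a chain along an upper triangular matrix: this is the chain of `G 0 ∣[k] u`. -/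
theorem IsChain.upper {G : ℕ → ℍ → ℂ} (hG : IsChain G) (k : ℤ) (a b d : ℝ) (ha : 0 < a)
    (hd : 0 < d) :
    IsChain (fun i τ => (a : ℂ) ^ (k - 1) * (d : ℂ)⁻¹ * ((d : ℂ) / a) ^ i *
      G i (ModularForm.upperTriangularGL a b d (mul_pos ha hd).ne' • τ)) where
  hasDeriv i := by
    have ha' : (a : ℂ) ≠ 0 := by exact_mod_cast ha.ne'
    have hd' : (d : ℂ) ≠ 0 := by exact_mod_cast hd.ne'
    have h1 := (hG.hasDeriv i).comp_smul (ModularForm.upperTriangularGL a b d (mul_pos ha hd).ne')
      (det_upperTriangularGL_pos a b d ha hd)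
    have h2 := h1.const_mul ((a : ℂ) ^ (k - 1) * (d : ℂ)⁻¹ * ((d : ℂ) / a) ^ (i + 1))
    refine h2.congr (fun τ => ?_)
    rw [det_upperTriangularGL, denom_upperTriangularGL]
    push_cast
    rw [pow_succ]
    field_simp
  zero i := by
    have h0 : IsZeroAtImInfty (G (i + 1)) := hG.zero i
    have hmap : Tendsto (fun τ : ℍ => ModularForm.upperTriangularGL a b d (mul_pos ha hd).ne' • τ)
        atImInfty atImInfty := by
      rw [atImInfty, tendsto_comap_iff]
      have : (UpperHalfPlane.im ∘ fun τ : ℍ =>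
          ModularForm.upperTriangularGL a b d (mul_pos ha hd).ne' • τ)
          = fun τ : ℍ => a / d * τ.im := by
        funext τ
        exact im_upperTriangularGL_smul a b d ha hd τ
      rw [this]
      exact (tendsto_comap).const_mul_atTop (div_pos ha hd)
    have h1 : Tendsto (fun τ : ℍ =>
        G (i + 1) (ModularForm.upperTriangularGL a b d (mul_pos ha hd).ne' • τ))
        atImInfty (𝓝 0) := h0.comp hmap
    have h2 := h1.const_mul ((a : ℂ) ^ (k - 1) * (d : ℂ)⁻¹ * ((d : ℂ) / a) ^ (i + 1))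
    rw [mul_zero] at h2
    exact h2

theorem heckeMatrix_eq_upperTriangularGL {p : ℕ} (hp : 0 < p) (j : ℕ) :
    ModularForm.heckeMatrix p j =
      ModularForm.upperTriangularGL 1 j p (mul_pos one_pos (Nat.cast_pos.mpr hp)).ne' := by
  rw [ModularForm.heckeMatrix, dif_neg hp.ne']

theorem heckeDiagMatrix_eq_upperTriangularGL {p : ℕ} (hp : 0 < p) :
    ModularForm.heckeDiagMatrix p =
      ModularForm.upperTriangularGL p 0 1 (mul_pos (Nat.cast_pos.mpr hp) one_pos).ne' := by
  rw [ModularForm.heckeDiagMatrix, dif_neg hp.ne']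

end Fermat.Agent.S22
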