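import Fermat.Agent.S22.Primitive

/-!
# S22: decay of chain members along vertical lines

* `IsChain.cuspClass` : if `G 0` is in the cusp class then so are all `G i`.
* `vertFilter x` : the filter "`τ = x + i t`, `t → ∞`" on `ℍ`.
* `CuspClass.tendsto_coe_pow_mul_vert` : `τ ^ j * g τ → 0` along `vertFilter x`.
* `HasDerivH.eq_zero_of_tendsto_vert`, `HasDerivH.unique_vert` : uniqueness of primitives
  normalised along a vertical line.
-/

set_option autoImplicit false

open Complex Filter Function Metric Set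
open UpperHalfPlane hiding I
open scoped Real Topology Manifold MatrixGroups ModularForm

noncomputable section

namespace Fermat.Agent.S22

/-- All members of a chain starting in the cusp class are in the cusp class. -/
theorem IsChain.cuspClass {h : ℝ} (hh : 0 < h) {G : ℕ → ℍ → ℂ} (hG : IsChain G)
    (h0 : CuspClass h (G 0)) (i : ℕ) : CuspClass h (G i) := by
  obtain ⟨G', hG', hG'0, hG'c⟩ := h0.exists_isChain hh
  have : G = G' := hG.eq_of_zero_eq hG' hG'0.symm
  rw [this]
  exact hG'c i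

/-- Exponential decay of a function in the cusp class. -/
theorem CuspClass.isBigO_exp {h : ℝ} (hh : 0 < h) {g : ℍ → ℂ} (hg : CuspClass h g) :
    g =O[atImInfty] fun τ => Real.exp (-2 * π * τ.im / h) :=
  hg.zero.exp_decay_atImInfty hh hg.periodic hg.holo hg.zero.isBoundedAtImInfty

/-- `(im τ) ^ j * g τ → 0` as `im τ → ∞`, uniformly in `re τ`. -/
theorem CuspClass.tendsto_im_pow_mul {h : ℝ} (hh : 0 < h) {g : ℍ → ℂ} (hg : CuspClass h g)
    (j : ℕ) : Tendsto (fun τ : ℍ => ((τ.im : ℝ) : ℂ) ^ j * g τ) atImInfty (𝓝 0) := by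
  have hO := hg.isBigO_exp hh
  have hc : 0 < 2 * π / h := div_pos Real.two_pi_pos hh
  -- `t ^ j * exp (-c t) → 0`
  have h1 : Tendsto (fun t : ℝ => t ^ j * Real.exp (-(2 * π / h) * t)) atTop (𝓝 0) := by
    have := (Real.tendsto_pow_mul_exp_neg_atTop_nhds_zero j).comp
      (tendsto_id.const_mul_atTop hc)
    have h2 : Tendsto (fun t : ℝ => ((2 * π / h) ^ j)⁻¹ *
        (((2 * π / h) * t) ^ j * Real.exp (-((2 * π / h) * t)))) atTop (𝓝 0) := by
      simpa using this.const_mul ((2 * π / h) ^ j)⁻¹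
    refine h2.congr fun t => ?_
    have hne : (2 * π / h) ^ j ≠ 0 := pow_ne_zero _ hc.ne'
    rw [mul_pow, neg_mul]
    field_simp
  have h2 : Tendsto (fun τ : ℍ => (τ.im) ^ j * Real.exp (-(2 * π / h) * τ.im)) atImInfty (𝓝 0) :=
    h1.comp tendsto_comap
  have h3 : (fun τ : ℍ => ((τ.im : ℝ) : ℂ) ^ j * g τ) =O[atImInfty]
      fun τ : ℍ => (τ.im) ^ j * Real.exp (-(2 * π / h) * τ.im) := by
    have hpow : (fun τ : ℍ => ((τ.im : ℝ) : ℂ) ^ j) =O[atImInfty] fun τ : ℍ => (τ.im) ^ j := by
      refine Asymptotics.isBigO_of_le _ fun τ => ?_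
      simp
    have := hpow.mul hO
    refine this.congr_right fun τ => ?_
    congr 2
    ring
  exact h3.trans_tendsto h2

/-- The filter on `ℍ` of points `x + i t` with `t → ∞`. -/
def vertFilter (x : ℝ) : Filter ℍ :=
  Filter.map (fun t : ℝ => ofComplex ((x : ℂ) + (t : ℂ) * I)) atTop

theorem ofComplex_vert_im {x t : ℝ} (ht : 0 < t) :
    (ofComplex ((x : ℂ) + (t : ℂ) * I)).im = t := by
  have : 0 < ((x : ℂ) + (t : ℂ) * I).im := by simpa using ht
  rw [ofComplex_apply_of_im_pos this]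
  simp [UpperHalfPlane.im]

theorem ofComplex_vert_coe {x t : ℝ} (ht : 0 < t) :
    ((ofComplex ((x : ℂ) + (t : ℂ) * I) : ℍ) : ℂ) = (x : ℂ) + (t : ℂ) * I := by
  have : 0 < ((x : ℂ) + (t : ℂ) * I).im := by simpa using ht
  rw [ofComplex_apply_of_im_pos this]

instance vertFilter_neBot (x : ℝ) : (vertFilter x).NeBot := by
  unfold vertFilter
  infer_instance

theorem vertFilter_le_atImInfty (x : ℝ) : vertFilter x ≤ atImInfty := by
  unfold vertFilter
  rw [← Filter.Tendsto, atImInfty, tendsto_comap_iff]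
  refine tendsto_atTop_mono' atTop ?_ tendsto_id
  filter_upwards [eventually_gt_atTop 0] with t ht
  simp only [Function.comp_apply, id_eq]
  rw [ofComplex_vert_im ht]

theorem tendsto_vertFilter_iff {α : Type*} {F : ℍ → α} {l : Filter α} (x : ℝ) :
    Tendsto F (vertFilter x) l ↔
      Tendsto (fun t : ℝ => F (ofComplex ((x : ℂ) + (t : ℂ) * I))) atTop l := by
  unfold vertFilter
  rw [Filter.tendsto_map'_iff]
  rfl

/-- `τ ^ j * g τ → 0` along vertical lines, for `g` in the cusp class. -/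
theorem CuspClass.tendsto_coe_pow_mul_vert {h : ℝ} (hh : 0 < h) {g : ℍ → ℂ}
    (hg : CuspClass h g) (x : ℝ) (j : ℕ) :
    Tendsto (fun τ : ℍ => (τ : ℂ) ^ j * g τ) (vertFilter x) (𝓝 0) := by
  have h1 : Tendsto (fun τ : ℍ => (2 : ℂ) ^ j * (((τ.im : ℝ) : ℂ) ^ j * g τ)) (vertFilter x)
      (𝓝 0) := by
    have := ((hg.tendsto_im_pow_mul hh j).mono_left (vertFilter_le_atImInfty x)).const_mul
      ((2 : ℂ) ^ j)
    simpa using this
  rw [tendsto_zero_iff_norm_tendsto_zero] at h1 ⊢
  refine squeeze_zero' (Eventually.of_forall fun _ => norm_nonneg _) ?_ h1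
  unfold vertFilter
  rw [Filter.eventually_map]
  filter_upwards [eventually_gt_atTop 0, eventually_ge_atTop |x|] with t ht htx
  set τ : ℍ := ofComplex ((x : ℂ) + (t : ℂ) * I) with hτ
  have him : τ.im = t := ofComplex_vert_im ht
  have hco : (τ : ℂ) = (x : ℂ) + (t : ℂ) * I := ofComplex_vert_coe ht
  have hnorm : ‖(τ : ℂ)‖ ≤ 2 * t := by
    rw [hco]
    calc ‖(x : ℂ) + (t : ℂ) * I‖ ≤ ‖(x : ℂ)‖ + ‖(t : ℂ) * I‖ := norm_add_le _ _
      _ = |x| + |t| := by simp
      _ ≤ t + t := by
        have : |t| = t := abs_of_pos ht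
        linarith
      _ = 2 * t := by ring
  simp only [norm_mul, norm_pow, Complex.norm_real, Real.norm_eq_abs, Complex.norm_ofNat, him,
    abs_of_pos ht]
  rw [← mul_assoc, ← mul_pow]
  gcongr

/-- A function on `ℍ` with zero derivative which tends to zero along a vertical line is zero. -/
theorem HasDerivH.eq_zero_of_tendsto_vert {F : ℍ → ℂ} (h : HasDerivH F 0) {x : ℝ}
    (hz : Tendsto F (vertFilter x) (𝓝 0)) : F = 0 := by
  funext τ
  have hconst : F = fun _ => F τ := by
    funext τ'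
    exact h.eq_of_deriv_zero τ' τ
  rw [hconst] at hz
  exact tendsto_nhds_unique tendsto_const_nhds hz

/-- Two primitives of the same function whose difference tends to zero along a vertical line
are equal. -/
theorem HasDerivH.unique_vert {G₁ G₂ g : ℍ → ℂ} (h₁ : HasDerivH G₁ g) (h₂ : HasDerivH G₂ g)
    {x : ℝ} (hz : Tendsto (fun τ => G₁ τ - G₂ τ) (vertFilter x) (𝓝 0)) : G₁ = G₂ := by
  have hd : HasDerivH (G₁ - G₂) 0 := by
    have := h₁.sub_aux h₂
    simpa using this
  have := hd.eq_zero_of_tendsto_vert (x := x) hz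
  funext τ
  have h0 := congrFun this τ
  simpa [sub_eq_zero] using h0

/-- A map `φ : ℍ → ℍ` which is affine `τ ↦ r τ + s` (`r > 0`, `s` real) sends vertical lines to
vertical lines. -/
theorem tendsto_vertFilter_of_affine {φ : ℍ → ℍ} {r s : ℝ} (hr : 0 < r)
    (hφ : ∀ τ : ℍ, (φ τ : ℂ) = (r : ℂ) * τ + s) (x : ℝ) :
    Tendsto φ (vertFilter x) (vertFilter (r * x + s)) := by
  rw [tendsto_vertFilter_iff]
  have h1 : Tendsto (fun t : ℝ => ofComplex (((r * x + s : ℝ) : ℂ) + ((r * t : ℝ) : ℂ) * I))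
      atTop (vertFilter (r * x + s)) := by
    have := (tendsto_vertFilter_iff (F := id) (l := vertFilter (r * x + s)) (r * x + s)).mp
      tendsto_id
    exact this.comp (tendsto_id.const_mul_atTop hr)
  refine h1.congr' ?_
  filter_upwards [eventually_gt_atTop 0] with t ht
  apply UpperHalfPlane.ext
  rw [hφ, ofComplex_vert_coe ht, ofComplex_vert_coe (mul_pos hr ht)]
  push_cast
  ring

end Fermat.Agent.S22
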