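import Mathlib
import Fermat.Prelude.Def_CuspForm_HeckeAlgebra

/-!
# S22: shared definitions (Eichler kernel route)

See `NOTES/S22.md`.  All declarations live in `Fermat.Agent.S22`.
-/

set_option autoImplicit false

namespace Fermat.Agent.S22

open UpperHalfPlane Filter Topology
open scoped MatrixGroups ModularForm

/-- `G` is a holomorphic primitive of `g` on `ℍ`. -/
def HasDerivH (G g : ℍ → ℂ) : Prop :=
  ∀ τ : ℍ, HasDerivAt (G ∘ ofComplex) (g τ) (τ : ℂ)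

/-- A chain of iterated primitives `G 0 = g, G 1, G 2, …` with `(G (i+1))' = G i`,
all `G (i+1)` vanishing at `i∞`. -/
structure IsChain (G : ℕ → ℍ → ℂ) : Prop where
  hasDeriv : ∀ i, HasDerivH (G (i + 1)) (G i)
  zero : ∀ i, IsZeroAtImInfty (G (i + 1))

/-- The Eichler kernel of depth `m` attached to a chain `G`:
`ker G m τ x y = ∑_{i ≤ m} m!/(m-i)! * G (i+1) τ * (x - τ y)^(m-i) * y^i`
(morally `∫_{i∞}^τ g(z) (x - z y)^m dz`). -/
noncomputable def ker (G : ℕ → ℍ → ℂ) : ℕ → ℍ → ℂ → ℂ → ℂ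
  | 0, τ, _, _ => G 1 τ
  | (m + 1), τ, x, y =>
      G 1 τ * (x - τ * y) ^ (m + 1) + (m + 1) * y * ker (fun i => G (i + 1)) m τ x y

@[simp] theorem ker_zero (G : ℕ → ℍ → ℂ) (τ : ℍ) (x y : ℂ) : ker G 0 τ x y = G 1 τ := rfl

theorem ker_succ (G : ℕ → ℍ → ℂ) (m : ℕ) (τ : ℍ) (x y : ℂ) :
    ker G (m + 1) τ x y =
      G 1 τ * (x - τ * y) ^ (m + 1) + (m + 1) * y * ker (fun i => G (i + 1)) m τ x y := rfl

end Fermat.Agent.S22
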