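import Fermat.Agent.S22.Period
import Fermat.Agent.S22.Decomp
import Fermat.Agent.S22.UpperTri

/-!
# S22: Hecke stability of the period lattice
-/

set_option autoImplicit false

namespace Fermat.Agent.S22

open UpperHalfPlane Filter Topology CongruenceSubgroup
open scoped MatrixGroups ModularForm Manifold

section upperChain

/-- The upper triangular matrix with integer entries `a, b, d` (`a, d > 0`) in `GL (Fin 2) ℝ`. -/
noncomputable def upperZ (a b d : ℤ) (ha : 0 < a) (hd : 0 < d) : GL (Fin 2) ℝ :=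
  ModularForm.upperTriangularGL (a : ℝ) (b : ℝ) (d : ℝ)
    (mul_pos (Int.cast_pos.mpr ha) (Int.cast_pos.mpr hd)).ne'

/-- The chain transported along an upper triangular matrix. -/
noncomputable def upperChain (k : ℤ) (a b d : ℤ) (ha : 0 < a) (hd : 0 < d) (G : ℕ → ℍ → ℂ) :
    ℕ → ℍ → ℂ :=
  fun i τ => (((a : ℝ) : ℂ)) ^ (k - 1) * (((d : ℝ) : ℂ))⁻¹ * ((((d : ℝ) : ℂ)) / ((a : ℝ) : ℂ)) ^ i *
    G i (upperZ a b d ha hd • τ)

theorem upperChain_isChain (k : ℤ) (a b d : ℤ) (ha : 0 < a) (hd : 0 < d) {G : ℕ → ℍ → ℂ}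
    (hG : IsChain G) : IsChain (upperChain k a b d ha hd G) :=
  hG.upper k (a : ℝ) (b : ℝ) (d : ℝ) (Int.cast_pos.mpr ha) (Int.cast_pos.mpr hd)

theorem upperChain_zero (k : ℤ) (a b d : ℤ) (ha : 0 < a) (hd : 0 < d) (G : ℕ → ℍ → ℂ) :
    upperChain k a b d ha hd G 0 = G 0 ∣[k] upperZ a b d ha hd := by
  funext τ
  rw [upperZ, slash_upperTriangularGL k (a : ℝ) (b : ℝ) (d : ℝ) (Int.cast_pos.mpr ha)
    (Int.cast_pos.mpr hd)]
  simp [upperChain, upperZ]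

theorem ker_upperChain (m : ℕ) (a b d : ℤ) (ha : 0 < a) (hd : 0 < d) (G : ℕ → ℍ → ℂ)
    (τ : ℍ) (x y : ℂ) :
    ker (upperChain ((m : ℤ) + 2) a b d ha hd G) m τ x y =
      ker G m (upperZ a b d ha hd • τ) ((a : ℂ) * x + (b : ℂ) * y) ((d : ℂ) * y) := by
  have ha' : ((a : ℝ) : ℂ) ≠ 0 := by exact_mod_cast ha.ne'
  have hd' : ((d : ℝ) : ℂ) ≠ 0 := by exact_mod_cast hd.ne'
  have hcoe : ((upperZ a b d ha hd • τ : ℍ) : ℂ) = (((a : ℝ) : ℂ) * τ + ((b : ℝ) : ℂ)) / ((d : ℝ) : ℂ) :=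
    coe_upperTriangularGL_smul (a : ℝ) (b : ℝ) (d : ℝ) (Int.cast_pos.mpr ha)
      (Int.cast_pos.mpr hd) τ
  have hu : ((d : ℝ) : ℂ) * ((upperZ a b d ha hd • τ : ℍ) : ℂ) =
      ((a : ℝ) : ℂ) * τ + ((b : ℝ) : ℂ) := by
    rw [hcoe]; field_simp
  have hB : (((d : ℝ) : ℂ) / ((a : ℝ) : ℂ)) * ((a : ℝ) : ℂ) = ((d : ℝ) : ℂ) := by field_simp
  have key := kerV_upper (W := ℂ) (fun i => G i (upperZ a b d ha hd • τ))
    (fun i => upperChain ((m : ℤ) + 2) a b d ha hd G i τ) m (τ : ℂ)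
    ((upperZ a b d ha hd • τ : ℍ) : ℂ) x y ((a : ℝ) : ℂ) ((b : ℝ) : ℂ) ((d : ℝ) : ℂ)
    (((d : ℝ) : ℂ) / ((a : ℝ) : ℂ))
    ((((a : ℝ) : ℂ)) ^ ((m : ℤ) + 2 - 1) * (((d : ℝ) : ℂ))⁻¹) hu hB
    (fun i => by simp only [upperChain, smul_eq_mul])
  have hCB : (((a : ℝ) : ℂ)) ^ ((m : ℤ) + 2 - 1) * (((d : ℝ) : ℂ))⁻¹ *
      (((d : ℝ) : ℂ) / ((a : ℝ) : ℂ)) = ((a : ℝ) : ℂ) ^ m := by
    have : ((m : ℤ) + 2 - 1) = ((m + 1 : ℕ) : ℤ) := by push_cast; ring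
    rw [this, zpow_natCast, pow_succ]
    field_simp
  rw [hCB, smul_eq_mul, smul_eq_mul] at key
  have key' := mul_left_cancel₀ (pow_ne_zero m ha') key
  rw [ker_eq_kerV, ker_eq_kerV, key']
  simp only [Complex.ofReal_intCast]

end upperChain

section decomp

theorem upper_mul_SL2_decomp (a b d : ℤ) (ha : 0 < a) (hd : 0 < d) (δ : SL(2, ℤ)) :
    ∃ (δ' : SL(2, ℤ)) (a' b' d' : ℤ), 0 < a' ∧ 0 < d' ∧
      (!![a, b; 0, d] : Matrix (Fin 2) (Fin 2) ℤ) * (δ : Matrix (Fin 2) (Fin 2) ℤ) =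
        (δ' : Matrix (Fin 2) (Fin 2) ℤ) * !![a', b'; 0, d'] := by
  have hdet : 0 < ((!![a, b; 0, d] : Matrix (Fin 2) (Fin 2) ℤ) *
      (δ : Matrix (Fin 2) (Fin 2) ℤ)).det := by
    rw [Matrix.det_mul, Matrix.det_fin_two_of, δ.det_coe]
    simp only [mul_zero, sub_zero, mul_one]
    exact mul_pos ha hd
  obtain ⟨δ', a', b', d', ha', hd', h⟩ := exists_SL2_mul_upper _ hdet
  exact ⟨δ', a', b', d', ha', hd', h⟩

/-- The data of a decomposition `u * δ = δ' * u'`. -/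
structure UpperDecomp (a b d : ℤ) (δ : SL(2, ℤ)) where
  δ' : SL(2, ℤ)
  a' : ℤ
  b' : ℤ
  d' : ℤ
  ha' : 0 < a'
  hd' : 0 < d'
  eq : (!![a, b; 0, d] : Matrix (Fin 2) (Fin 2) ℤ) * (δ : Matrix (Fin 2) (Fin 2) ℤ) =
        (δ' : Matrix (Fin 2) (Fin 2) ℤ) * !![a', b'; 0, d']

noncomputable def upperDecomp (a b d : ℤ) (ha : 0 < a) (hd : 0 < d) (δ : SL(2, ℤ)) :
    UpperDecomp a b d δ :=
  Classical.choice <| by
    obtain ⟨δ', a', b', d', ha', hd', h⟩ := upper_mul_SL2_decomp a b d ha hd δ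
    exact ⟨⟨δ', a', b', d', ha', hd', h⟩⟩

variable {a b d : ℤ} {δ : SL(2, ℤ)}

theorem UpperDecomp.gl_eq (D : UpperDecomp a b d δ) (ha : 0 < a) (hd : 0 < d) :
    upperZ a b d ha hd * (δ : GL (Fin 2) ℝ) =
      (D.δ' : GL (Fin 2) ℝ) * upperZ D.a' D.b' D.d' D.ha' D.hd' := by
  apply Matrix.GeneralLinearGroup.ext
  intro i j
  have h2 := congrArg (fun M : Matrix (Fin 2) (Fin 2) ℤ => ((M i j : ℤ) : ℝ)) D.eq
  simp only [Matrix.mul_apply, Fin.sum_univ_two] at h2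
  simp only [upperZ, Matrix.GeneralLinearGroup.coe_mul, ModularForm.val_upperTriangularGL,
    Matrix.mul_apply, Fin.sum_univ_two]
  fin_cases i <;> fin_cases j <;> simpa using h2

theorem UpperDecomp.smul_eq (D : UpperDecomp a b d δ) (ha : 0 < a) (hd : 0 < d) (τ : ℍ) :
    upperZ a b d ha hd • (δ • τ) = D.δ' • (upperZ D.a' D.b' D.d' D.ha' D.hd' • τ) := by
  have h := congrArg (fun g : GL (Fin 2) ℝ => g • τ) (D.gl_eq ha hd)
  simp only [mul_smul] at h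
  exact h

theorem UpperDecomp.slash_eq (D : UpperDecomp a b d δ) (ha : 0 < a) (hd : 0 < d) (k : ℤ)
    (f : ℍ → ℂ) :
    (f ∣[k] upperZ a b d ha hd) ∣[k] δ = (f ∣[k] D.δ') ∣[k] upperZ D.a' D.b' D.d' D.ha' D.hd' := by
  rw [ModularForm.SL_slash, ModularForm.SL_slash, ← SlashAction.slash_mul, ← SlashAction.slash_mul,
    D.gl_eq ha hd]

theorem UpperDecomp.actX_eq (D : UpperDecomp a b d δ) (X Y : ℤ) :
    a * actX δ X Y + b * actY δ X Y = actX D.δ' (D.a' * X + D.b' * Y) (D.d' * Y) := by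
  have h00 := congrArg (fun M : Matrix (Fin 2) (Fin 2) ℤ => M 0 0) D.eq
  have h01 := congrArg (fun M : Matrix (Fin 2) (Fin 2) ℤ => M 0 1) D.eq
  simp [Matrix.mul_apply, Fin.sum_univ_two] at h00 h01
  simp only [actX, actY]
  linear_combination X * h00 + Y * h01

theorem UpperDecomp.actY_eq (D : UpperDecomp a b d δ) (X Y : ℤ) :
    d * actY δ X Y = actY D.δ' (D.a' * X + D.b' * Y) (D.d' * Y) := by
  have h10 := congrArg (fun M : Matrix (Fin 2) (Fin 2) ℤ => M 1 0) D.eq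
  have h11 := congrArg (fun M : Matrix (Fin 2) (Fin 2) ℤ => M 1 1) D.eq
  simp [Matrix.mul_apply, Fin.sum_univ_two] at h10 h11
  simp only [actY]
  linear_combination X * h10 + Y * h11

end decomp

section hecke

variable {N : ℕ} [NeZero N] {m : ℕ}

/-- Key computation: the periods of `f' = ∑ᵢ f ∣ uᵢ` are sums of periods of `f`. -/
theorem period_apply_of_coe_eq_sum {ι : Type*} (s : Finset ι) (a b d : ι → ℤ)
    (ha : ∀ i, 0 < a i) (hd : ∀ i, 0 < d i)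
    (f f' : CuspForm (Gamma0 N) ((m : ℤ) + 2))
    (hff' : (⇑f' : ℍ → ℂ) = ∑ i ∈ s, ⇑f ∣[(m : ℤ) + 2] upperZ (a i) (b i) (d i) (ha i) (hd i))
    (δ : SL(2, ℤ)) (X Y : ℤ) :
    period N m δ X Y f' = ∑ i ∈ s,
      period N m (upperDecomp (a i) (b i) (d i) (ha i) (hd i) δ).δ'
        ((upperDecomp (a i) (b i) (d i) (ha i) (hd i) δ).a' * X +
          (upperDecomp (a i) (b i) (d i) (ha i) (hd i) δ).b' * Y)
        ((upperDecomp (a i) (b i) (d i) (ha i) (hd i) δ).d' * Y) f := by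
  classical
  -- the chain of `f'` at `1`
  have h1 : chainOf f' 1 = fun n => ∑ i ∈ s,
      upperChain ((m : ℤ) + 2) (a i) (b i) (d i) (ha i) (hd i) (chainOf f 1) n := by
    refine chainOf_eq_of_isChain _ _
      (IsChain.sum s fun i _ => upperChain_isChain ((m : ℤ) + 2) _ _ _ _ _ (chainOf_isChain f 1)) ?_
    rw [SlashAction.slash_one, hff']
    refine Finset.sum_congr rfl fun i _ => ?_
    rw [upperChain_zero, chainOf_zero, SlashAction.slash_one]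
  -- the chain of `f'` at `δ`
  have h2 : chainOf f' δ = fun n => ∑ i ∈ s,
      upperChain ((m : ℤ) + 2) (upperDecomp (a i) (b i) (d i) (ha i) (hd i) δ).a'
        (upperDecomp (a i) (b i) (d i) (ha i) (hd i) δ).b'
        (upperDecomp (a i) (b i) (d i) (ha i) (hd i) δ).d'
        (upperDecomp (a i) (b i) (d i) (ha i) (hd i) δ).ha'
        (upperDecomp (a i) (b i) (d i) (ha i) (hd i) δ).hd'
        (chainOf f (upperDecomp (a i) (b i) (d i) (ha i) (hd i) δ).δ') n := by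
    refine chainOf_eq_of_isChain _ _
      (IsChain.sum s fun i _ => upperChain_isChain ((m : ℤ) + 2) _ _ _ _ _ (chainOf_isChain f _)) ?_
    rw [hff', SlashAction.sum_slash]
    refine Finset.sum_congr rfl fun i _ => ?_
    rw [upperChain_zero, chainOf_zero,
      (upperDecomp (a i) (b i) (d i) (ha i) (hd i) δ).slash_eq (ha i) (hd i)]
  rw [period_apply_I, h1, h2, ker_eq_kerV, ker_eq_kerV]
  simp only [Finset.sum_apply]
  rw [kerV_sum, kerV_sum, ← Finset.sum_sub_distrib]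
  refine Finset.sum_congr rfl fun i _ => ?_
  set D := upperDecomp (a i) (b i) (d i) (ha i) (hd i) δ with hD
  rw [← ker_eq_kerV, ← ker_eq_kerV, ker_upperChain, ker_upperChain,
    period_apply D.δ' _ _ f (upperZ D.a' D.b' D.d' D.ha' D.hd' • UpperHalfPlane.I),
    D.smul_eq (ha i) (hd i)]
  have e1 := D.actX_eq X Y
  have e2 := D.actY_eq X Y
  have e1' : ((a i : ℤ) : ℂ) * (actX δ X Y : ℂ) + ((b i : ℤ) : ℂ) * (actY δ X Y : ℂ) =
      ((actX D.δ' (D.a' * X + D.b' * Y) (D.d' * Y) : ℤ) : ℂ) := by exact_mod_cast e1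
  have e2' : ((d i : ℤ) : ℂ) * (actY δ X Y : ℂ) =
      ((actY D.δ' (D.a' * X + D.b' * Y) (D.d' * Y) : ℤ) : ℂ) := by exact_mod_cast e2
  rw [e1', e2']
  push_cast
  rfl

end hecke

end Fermat.Agent.S22
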