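import Fermat.Agent.S22.Defs

/-!
# S22: algebraic properties of the Eichler kernel
-/

set_option autoImplicit false

namespace Fermat.Agent.S22

open UpperHalfPlane
open scoped Nat

section kerV

variable {W W' : Type*} [AddCommGroup W] [Module ℂ W] [AddCommGroup W'] [Module ℂ W']

/-- Vector-valued (pointwise) version of the Eichler kernel. -/
noncomputable def kerV (g : ℕ → W) : ℕ → ℂ → ℂ → ℂ → W
  | 0, _, _, _ => g 1
  | (m + 1), τ, x, y =>
      (x - τ * y) ^ (m + 1) • g 1 + (((m : ℂ) + 1) * y) • kerV (fun i => g (i + 1)) m τ x y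

@[simp] theorem kerV_zero (g : ℕ → W) (τ x y : ℂ) : kerV g 0 τ x y = g 1 := rfl

theorem kerV_succ (g : ℕ → W) (m : ℕ) (τ x y : ℂ) :
    kerV g (m + 1) τ x y =
      (x - τ * y) ^ (m + 1) • g 1 + (((m : ℂ) + 1) * y) • kerV (fun i => g (i + 1)) m τ x y :=
  rfl

theorem map_kerV (L : W →ₗ[ℂ] W') (g : ℕ → W) (m : ℕ) (τ x y : ℂ) :
    L (kerV g m τ x y) = kerV (fun i => L (g i)) m τ x y := by
  induction m generalizing g with
  | zero => rfl
  | succ m ih => simp only [kerV_succ, map_add, map_smul, ih]

theorem kerV_add (g g' : ℕ → W) (m : ℕ) (τ x y : ℂ) :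
    kerV (fun i => g i + g' i) m τ x y = kerV g m τ x y + kerV g' m τ x y := by
  induction m generalizing g g' with
  | zero => rfl
  | succ m ih =>
    simp only [kerV_succ, ih, smul_add]
    abel

theorem kerV_smul (c : ℂ) (g : ℕ → W) (m : ℕ) (τ x y : ℂ) :
    kerV (fun i => c • g i) m τ x y = c • kerV g m τ x y := by
  induction m generalizing g with
  | zero => rfl
  | succ m ih =>
    simp only [kerV_succ, ih, smul_add]
    rw [smul_comm c, smul_comm c]

theorem kerV_sub (g g' : ℕ → W) (m : ℕ) (τ x y : ℂ) :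
    kerV (fun i => g i - g' i) m τ x y = kerV g m τ x y - kerV g' m τ x y := by
  induction m generalizing g g' with
  | zero => rfl
  | succ m ih =>
    simp only [kerV_succ, ih, smul_sub]
    abel

theorem kerV_sum {ι : Type*} (s : Finset ι) (g : ι → ℕ → W) (m : ℕ) (τ x y : ℂ) :
    kerV (fun i => ∑ j ∈ s, g j i) m τ x y = ∑ j ∈ s, kerV (g j) m τ x y := by
  induction m generalizing g with
  | zero => rfl
  | succ m ih =>
    simp only [kerV_succ, ih, Finset.smul_sum, Finset.sum_add_distrib]

theorem kerV_homog (g : ℕ → W) (m : ℕ) (τ x y c : ℂ) :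
    kerV g m τ (c * x) (c * y) = c ^ m • kerV g m τ x y := by
  induction m generalizing g with
  | zero => simp
  | succ m ih =>
    have e : c * x - τ * (c * y) = c * (x - τ * y) := by ring
    simp only [kerV_succ, ih, smul_add, smul_smul, e, mul_pow]
    congr 1
    congr 1; ring

theorem kerV_diag (g : ℕ → W) (m : ℕ) (τ : ℂ) :
    kerV g m τ τ 1 = ((m ! : ℕ) : ℂ) • g (m + 1) := by
  induction m generalizing g with
  | zero => simp
  | succ m ih =>
    rw [kerV_succ, ih]
    simp only [mul_one, sub_self, ne_eq, Nat.add_eq_zero_iff, one_ne_zero, and_false,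
      not_false_eq_true, zero_pow, zero_smul, zero_add, smul_smul]
    congr 1
    rw [Nat.factorial_succ]
    push_cast
    ring

/-- Transport along an upper triangular substitution: if `d * u = a * τ + b` and `B * a = d`
then the kernel of the rescaled chain is the kernel at the transformed arguments. -/
theorem kerV_upper (g h : ℕ → W) (m : ℕ) (τ u x y a b d B C : ℂ)
    (hu : d * u = a * τ + b) (hB : B * a = d)
    (hgh : ∀ i, h i = (C * B ^ i) • g i) :
    a ^ m • kerV h m τ x y = (C * B) • kerV g m u (a * x + b * y) (d * y) := by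
  induction m generalizing g h C with
  | zero => simp [hgh 1, smul_smul]
  | succ m ih =>
    have key : a * x + b * y - u * (d * y) = a * (x - τ * y) := by
      have : u * (d * y) = (d * u) * y := by ring
      rw [this, hu]; ring
    have ih' := ih (fun i => g (i + 1)) (fun i => h (i + 1)) (C * B) (fun i => by
      rw [hgh (i + 1), pow_succ]; congr 1; ring)
    rw [kerV_succ, kerV_succ, key, mul_pow, smul_add, smul_add, smul_smul, smul_smul, smul_smul,
      smul_smul, hgh 1, smul_smul]
    congr 1
    · congr 1; ring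
    · have e1 : a ^ (m + 1) * ((↑m + 1) * y) = (((m : ℂ) + 1) * y * a) * a ^ m := by ring
      rw [e1, mul_smul, ih', smul_smul]
      congr 1
      rw [← hB]; ring

end kerV

theorem ker_eq_kerV (G : ℕ → ℍ → ℂ) (m : ℕ) (τ : ℍ) (x y : ℂ) :
    ker G m τ x y = kerV (fun i => G i τ) m (τ : ℂ) x y := by
  induction m generalizing G with
  | zero => rfl
  | succ m ih =>
    rw [ker_succ, kerV_succ, ih]
    simp only [smul_eq_mul]
    ring

/-- polynomiality of the kernel along an affine line `(x, y) = (α t + β, γ t + δ)`. -/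
theorem kerV_poly (g : ℕ → ℂ) (m : ℕ) (τ α β γ δ : ℂ) :
    ∃ p : Polynomial ℂ, ∀ t : ℂ, p.eval t = kerV g m τ (α * t + β) (γ * t + δ) := by
  induction m generalizing g with
  | zero => exact ⟨Polynomial.C (g 1), fun t => by simp⟩
  | succ m ih =>
    obtain ⟨p, hp⟩ := ih (fun i => g (i + 1))
    refine ⟨((Polynomial.C α * Polynomial.X + Polynomial.C β) -
        Polynomial.C τ * (Polynomial.C γ * Polynomial.X + Polynomial.C δ)) ^ (m + 1) *
          Polynomial.C (g 1) +
        Polynomial.C ((m : ℂ) + 1) * (Polynomial.C γ * Polynomial.X + Polynomial.C δ) * p,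
      fun t => ?_⟩
    simp only [Polynomial.eval_add, Polynomial.eval_mul, Polynomial.eval_pow, Polynomial.eval_sub,
      Polynomial.eval_C, Polynomial.eval_X, hp, kerV_succ, smul_eq_mul]

end Fermat.Agent.S22
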