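import Fermat.Agent.S22.Defs

/-!
# S22 helper: vanishing statements

* cusp forms of weight `≤ 1` on `Γ₀(N)` vanish;
* a holomorphic function of weight `-m ≤ 0`, invariant under `Γ₀(N)` and vanishing at all cusps, is zero.
-/

set_option autoImplicit false

namespace Fermat.Agent.S22

open UpperHalfPlane Filter Topology CongruenceSubgroup
open scoped MatrixGroups ModularForm Manifold

/-- `-1 ∈ Γ₀(N)` (as a subgroup of `GL₂(ℝ)`). -/
theorem neg_one_mem_Gamma0 (N : ℕ) : (-1 : GL (Fin 2) ℝ) ∈ (Gamma0 N : Subgroup (GL (Fin 2) ℝ)) := by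
  refine ⟨-1, ?_, by ext; simp⟩
  show (-1 : SL(2, ℤ)) ∈ Gamma0 N
  rw [Gamma0_mem]
  simp

/-- A modular form of weight `≤ 0` on `Γ₀(N)` that is zero at `i∞` vanishes. -/
theorem modularForm_eq_zero_of_weight_nonpos (N : ℕ) [NeZero N] {k : ℤ} (hk : k ≤ 0)
    (f : ModularForm (Gamma0 N) k) (h0 : IsZeroAtImInfty (f : ℍ → ℂ)) : f = 0 := by
  rcases hk.lt_or_eq with hk | rfl
  · exact ModularForm.isZero_of_neg_weight hk f
  · obtain ⟨c, hc⟩ := ModularForm.eq_const_of_weight_zero f
    have hc0 : c = 0 := by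
      have h1 : Tendsto (f : ℍ → ℂ) atImInfty (𝓝 0) := h0
      rw [hc] at h1
      have h2 : Tendsto (Function.const ℍ c) atImInfty (𝓝 c) := tendsto_const_nhds
      exact tendsto_nhds_unique h2 h1
    ext z
    rw [hc, hc0]
    rfl

/-- weight ≤ 1 cusp forms on Γ₀(N) vanish (k ≤ 0: Mathlib; k = 1: `-1 ∈ Γ₀(N)`). -/
theorem cuspForm_eq_zero_of_weight_le_one (N : ℕ) [NeZero N] {k : ℤ} (hk : k ≤ 1)
    (f : CuspForm (Gamma0 N) k) : f = 0 := by
  have key : (CuspForm.toModularFormₗ f : ModularForm (Gamma0 N) k) = 0 := by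
    rcases hk.lt_or_eq with hk | rfl
    · refine modularForm_eq_zero_of_weight_nonpos N (by omega) _ ?_
      have := f.zero_at_cusps' (c := OnePoint.infty) ?_
      · exact OnePoint.isZeroAt_infty_iff.mp this
      · exact (Subgroup.IsArithmetic.isCusp_iff_isCusp_SL2Z _).mpr
          (isCusp_SL2Z_iff'.mpr ⟨1, by simp⟩)
    · exact ModularForm.eq_zero_of_neg_one_mem (neg_one_mem_Gamma0 N) odd_one _
  ext z
  have := DFunLike.congr_fun key z
  simpa using this

/-- separation core: a holomorphic weight `-m` invariant function vanishing at all cusps is zero. -/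
theorem eq_zero_of_invariant_of_isZeroAtImInfty (N : ℕ) [NeZero N] (m : ℕ) (E : ℍ → ℂ)
    (hol : MDiff E) (hinv : ∀ γ ∈ Gamma0 N, E ∣[(-(m : ℤ))] γ = E)
    (hzero : ∀ δ : SL(2, ℤ), IsZeroAtImInfty (E ∣[(-(m : ℤ))] δ)) : E = 0 := by
  let F : ModularForm (Gamma0 N) (-(m : ℤ)) :=
    { toFun := E
      slash_action_eq' := by
        rintro γ ⟨g, hg, rfl⟩
        exact hinv g hg
      holo' := hol
      bdd_at_cusps' := by
        intro c hc
        have hc' : IsCusp c 𝒮ℒ := (Subgroup.IsArithmetic.isCusp_iff_isCusp_SL2Z _).mp hc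
        rw [OnePoint.isBoundedAt_iff_forall_SL2Z hc']
        intro γ _
        exact (hzero γ).isBoundedAtImInfty }
  have h0 : IsZeroAtImInfty (F : ℍ → ℂ) := by
    have := hzero 1
    show IsZeroAtImInfty E
    simpa using this
  have hF : F = 0 := modularForm_eq_zero_of_weight_nonpos N (by omega) F h0
  funext z
  exact DFunLike.congr_fun hF z

end Fermat.Agent.S22
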