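import Fermat.Agent.S22.KernelAlg
import Fermat.Agent.S22.Moebius
import Fermat.Agent.S22.Primitive
import Fermat.Agent.S22.Vanish

/-!
# S22, piece P10: derivative of the Eichler kernel, independence of the base point, separation.
(helper21)
-/

set_option autoImplicit false

namespace Fermat.Agent.S22

open UpperHalfPlane Filter Topology CongruenceSubgroup
open scoped MatrixGroups ModularForm Manifold

/-- K1: τ-derivative of the kernel. -/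
theorem ker_hasDerivH {G : ℕ → ℍ → ℂ} (hG : IsChain G) (m : ℕ) (x y : ℂ) :
    HasDerivH (fun τ => ker G m τ x y) (fun τ => G 0 τ * (x - τ * y) ^ m) := by
  induction m generalizing G with
  | zero =>
    refine (hG.hasDeriv 0).congr (fun τ => ?_)
    simp
  | succ m ih =>
    have h1 : HasDerivH (G 1) (G 0) := hG.hasDeriv 0
    have hlin : HasDerivH (fun τ : ℍ => x - (τ : ℂ) * y) (fun _ => 0 - 1 * y) := by
      have h2 : HasDerivH (fun τ : ℍ => (τ : ℂ) * y) (fun τ => 1 * y + (τ : ℂ) * 0) :=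
        hasDerivH_coe.mul (hasDerivH_const y)
      have h3 := (hasDerivH_const x).sub h2
      refine h3.congr (fun τ => ?_)
      ring
    have hpow := hlin.pow m
    have hA := h1.mul hpow
    have hB := (ih hG.shift).const_mul (((m : ℂ) + 1) * y)
    have hsum := hA.add hB
    have hfin := hsum.congr (g := fun τ => G 0 τ * (x - τ * y) ^ (m + 1)) (fun τ => by
      simp only [zero_add]
      ring)
    exact hfin

/-- Auxiliary identity: `x' - (δ τ) y' = (x - τ y) / (c τ + d)`. -/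
theorem smul_linear_identity (δ : SL(2, ℤ)) (τ : ℍ) (x y : ℂ) :
    ((δ 0 0 : ℂ) * x + (δ 0 1 : ℂ) * y) - ((δ • τ : ℍ) : ℂ) * ((δ 1 0 : ℂ) * x + (δ 1 1 : ℂ) * y)
      = (x - τ * y) / denom (δ : GL (Fin 2) ℝ) τ := by
  have hden : denom (δ : GL (Fin 2) ℝ) τ ≠ 0 := denom_ne_zero _ _
  have hdet : (δ 0 0 : ℂ) * (δ 1 1 : ℂ) - (δ 0 1 : ℂ) * (δ 1 0 : ℂ) = 1 := by
    have := δ.det_coe
    rw [Matrix.det_fin_two] at this
    exact_mod_cast this
  have hsm : ((δ • τ : ℍ) : ℂ)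
      = ((δ 0 0 : ℂ) * τ + (δ 0 1 : ℂ)) / ((δ 1 0 : ℂ) * τ + (δ 1 1 : ℂ)) := by
    rw [UpperHalfPlane.specialLinearGroup_apply]
    simp
  have hd : denom (δ : GL (Fin 2) ℝ) τ = (δ 1 0 : ℂ) * τ + (δ 1 1 : ℂ) := by
    simp [denom]
  rw [hsm, hd]
  rw [hd] at hden
  rw [div_mul_eq_mul_div, eq_div_iff hden, sub_mul, div_mul_cancel₀ _ hden]
  linear_combination (x - τ * y) * hdet

/-- K7: transformation law under `SL(2, ℤ)`: the "period" is independent of the base point. -/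
theorem ker_SL_sub_eq {G G' : ℕ → ℍ → ℂ} (hG : IsChain G) (hG' : IsChain G') (m : ℕ)
    (δ : SL(2, ℤ)) (h0 : G' 0 = G 0 ∣[(m : ℤ) + 2] δ) (x y : ℂ) (τ τ' : ℍ) :
    ker G m (δ • τ) ((δ 0 0 : ℂ) * x + (δ 0 1 : ℂ) * y) ((δ 1 0 : ℂ) * x + (δ 1 1 : ℂ) * y)
        - ker G' m τ x y
      = ker G m (δ • τ') ((δ 0 0 : ℂ) * x + (δ 0 1 : ℂ) * y) ((δ 1 0 : ℂ) * x + (δ 1 1 : ℂ) * y)
        - ker G' m τ' x y := by
  set x' : ℂ := (δ 0 0 : ℂ) * x + (δ 0 1 : ℂ) * y with hx'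
  set y' : ℂ := (δ 1 0 : ℂ) * x + (δ 1 1 : ℂ) * y with hy'
  have hdet : (δ : GL (Fin 2) ℝ).det.val = 1 := by simp
  have h1 := (ker_hasDerivH hG m x' y').comp_smul (δ : GL (Fin 2) ℝ) (by rw [hdet]; exact one_pos)
  have h2 := ker_hasDerivH hG' m x y
  have h3 := h1.sub h2
  have h4 : HasDerivH (fun τ => ker G m ((δ : GL (Fin 2) ℝ) • τ) x' y' - ker G' m τ x y) 0 := by
    refine h3.congr (fun τ => ?_)
    have hden : denom (δ : GL (Fin 2) ℝ) τ ≠ 0 := denom_ne_zero _ _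
    have hid := smul_linear_identity δ τ x y
    rw [← hx', ← hy'] at hid
    have hsl : (G 0 ∣[(m : ℤ) + 2] δ) τ
        = G 0 (δ • τ) * denom (δ : GL (Fin 2) ℝ) τ ^ (-((m : ℤ) + 2)) :=
      ModularForm.SL_slash_apply _ _ _
    simp only [Pi.zero_apply]
    rw [h0, hsl, hdet]
    have hid' : x' - (((δ : GL (Fin 2) ℝ) • τ : ℍ) : ℂ) * y'
        = (x - τ * y) / denom (δ : GL (Fin 2) ℝ) τ := hid
    rw [hid']
    have hz : denom (δ : GL (Fin 2) ℝ) τ ^ (-((m : ℤ) + 2))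
        = (denom (δ : GL (Fin 2) ℝ) τ ^ m * denom (δ : GL (Fin 2) ℝ) τ ^ 2)⁻¹ := by
      rw [zpow_neg, ← pow_add]
      norm_cast
    rw [hz]
    have e : G 0 ((δ : GL (Fin 2) ℝ) • τ) = G 0 (δ • τ) := rfl
    rw [e, div_pow]
    simp only [Complex.ofReal_one, mul_one]
    field_simp
    ring
  exact h4.eq_of_deriv_zero τ τ'

/-- A polynomial function vanishing at all integers vanishes identically. -/
theorem eq_zero_of_forall_int_eq_zero {F : ℂ → ℂ} (hp : ∃ p : Polynomial ℂ, ∀ t : ℂ, p.eval t = F t)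
    (hF : ∀ n : ℤ, F (n : ℂ) = 0) (t : ℂ) : F t = 0 := by
  obtain ⟨p, hp⟩ := hp
  have hp0 : p = 0 := by
    refine Polynomial.eq_zero_of_infinite_isRoot p ?_
    have hinf : (Set.range (fun n : ℤ => (n : ℂ))).Infinite :=
      Set.infinite_range_of_injective Int.cast_injective
    refine hinf.mono ?_
    rintro _ ⟨n, rfl⟩
    show p.IsRoot (n : ℂ)
    rw [Polynomial.IsRoot, hp, hF]
  rw [← hp, hp0, Polynomial.eval_zero]

/-- the difference of two polynomial functions is a polynomial function -/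
theorem exists_poly_sub {F₁ F₂ : ℂ → ℂ} (h₁ : ∃ p : Polynomial ℂ, ∀ t : ℂ, p.eval t = F₁ t)
    (h₂ : ∃ p : Polynomial ℂ, ∀ t : ℂ, p.eval t = F₂ t) :
    ∃ p : Polynomial ℂ, ∀ t : ℂ, p.eval t = F₁ t - F₂ t := by
  obtain ⟨p₁, hp₁⟩ := h₁
  obtain ⟨p₂, hp₂⟩ := h₂
  exact ⟨p₁ - p₂, fun t => by rw [Polynomial.eval_sub, hp₁, hp₂]⟩

/-- polynomial identity principle for the period: vanishing for integral `(X, Y)` implies
vanishing for all complex `(x, y)`. -/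
theorem ker_period_eq_zero_of_int {G G' : ℕ → ℍ → ℂ} (m : ℕ) (δ : SL(2, ℤ)) (τ₁ τ₂ : ℍ)
    (hc : ∀ X Y : ℤ,
      ker G m τ₁ ((δ 0 0 : ℂ) * X + (δ 0 1 : ℂ) * Y) ((δ 1 0 : ℂ) * X + (δ 1 1 : ℂ) * Y)
        - ker G' m τ₂ X Y = 0) (x y : ℂ) :
    ker G m τ₁ ((δ 0 0 : ℂ) * x + (δ 0 1 : ℂ) * y) ((δ 1 0 : ℂ) * x + (δ 1 1 : ℂ) * y)
        - ker G' m τ₂ x y = 0 := by
  -- first: all complex `x`, integral `Y`
  have step1 : ∀ (Y : ℤ) (x : ℂ),
      ker G m τ₁ ((δ 0 0 : ℂ) * x + (δ 0 1 : ℂ) * Y) ((δ 1 0 : ℂ) * x + (δ 1 1 : ℂ) * Y)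
        - ker G' m τ₂ x Y = 0 := by
    intro Y x
    refine eq_zero_of_forall_int_eq_zero
      (F := fun t => ker G m τ₁ ((δ 0 0 : ℂ) * t + (δ 0 1 : ℂ) * Y)
        ((δ 1 0 : ℂ) * t + (δ 1 1 : ℂ) * Y) - ker G' m τ₂ t Y) ?_ (fun n => hc n Y) x
    refine exists_poly_sub ?_ ?_
    · obtain ⟨p, hp⟩ := kerV_poly (fun i => G i τ₁) m (τ₁ : ℂ) (δ 0 0 : ℂ) ((δ 0 1 : ℂ) * Y)
        (δ 1 0 : ℂ) ((δ 1 1 : ℂ) * Y)
      exact ⟨p, fun t => by rw [hp, ker_eq_kerV]⟩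
    · obtain ⟨p, hp⟩ := kerV_poly (fun i => G' i τ₂) m (τ₂ : ℂ) 1 0 0 (Y : ℂ)
      refine ⟨p, fun t => ?_⟩
      rw [hp, ker_eq_kerV]
      simp
  refine eq_zero_of_forall_int_eq_zero
    (F := fun t => ker G m τ₁ ((δ 0 0 : ℂ) * x + (δ 0 1 : ℂ) * t)
      ((δ 1 0 : ℂ) * x + (δ 1 1 : ℂ) * t) - ker G' m τ₂ x t) ?_ (fun n => step1 n x) y
  refine exists_poly_sub ?_ ?_
  · obtain ⟨p, hp⟩ := kerV_poly (fun i => G i τ₁) m (τ₁ : ℂ) (δ 0 1 : ℂ) ((δ 0 0 : ℂ) * x)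
      (δ 1 1 : ℂ) ((δ 1 0 : ℂ) * x)
    refine ⟨p, fun t => ?_⟩
    rw [hp, ker_eq_kerV]
    congr 1 <;> ring
  · obtain ⟨p, hp⟩ := kerV_poly (fun i => G' i τ₂) m (τ₂ : ℂ) 0 x 1 0
    refine ⟨p, fun t => ?_⟩
    rw [hp, ker_eq_kerV]
    simp

/-- SEP: if all integral periods of `f` vanish then `f = 0`. -/
theorem eq_zero_of_periods_eq_zero (N : ℕ) [NeZero N] (m : ℕ)
    (f : CuspForm (Gamma0 N) ((m : ℤ) + 2)) (G : SL(2, ℤ) → ℕ → ℍ → ℂ)
    (hG : ∀ δ, IsChain (G δ)) (h0 : ∀ δ, G δ 0 = ⇑f ∣[(m : ℤ) + 2] δ)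
    (hc : ∀ (δ : SL(2, ℤ)) (X Y : ℤ),
      ker (G 1) m (δ • UpperHalfPlane.I) ((δ 0 0 : ℂ) * X + (δ 0 1 : ℂ) * Y)
          ((δ 1 0 : ℂ) * X + (δ 1 1 : ℂ) * Y)
        - ker (G δ) m UpperHalfPlane.I X Y = 0) : f = 0 := by
  have hG10 : G 1 0 = ⇑f := by
    rw [h0 1]
    exact SlashAction.slash_one _ _
  -- periods vanish for all complex arguments and all base points
  have hper : ∀ (δ : SL(2, ℤ)) (τ : ℍ) (x y : ℂ),
      ker (G 1) m (δ • τ) ((δ 0 0 : ℂ) * x + (δ 0 1 : ℂ) * y) ((δ 1 0 : ℂ) * x + (δ 1 1 : ℂ) * y)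
        = ker (G δ) m τ x y := by
    intro δ τ x y
    have h1 := ker_period_eq_zero_of_int (G := G 1) (G' := G δ) m δ (δ • UpperHalfPlane.I)
      UpperHalfPlane.I (hc δ) x y
    have h2 := ker_SL_sub_eq (hG 1) (hG δ) m δ (by rw [h0 δ, hG10]) x y τ UpperHalfPlane.I
    rw [h1] at h2
    exact sub_eq_zero.mp h2
  -- the top primitive
  set E : ℍ → ℂ := G 1 (m + 1) with hE
  have hfact : ((m.factorial : ℕ) : ℂ) ≠ 0 := by
    exact_mod_cast Nat.factorial_ne_zero m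
  have hEslash : ∀ δ : SL(2, ℤ), E ∣[(-(m : ℤ))] δ = G δ (m + 1) := by
    intro δ
    funext τ
    have h := hper δ τ (τ : ℂ) 1
    have hd : denom (δ : GL (Fin 2) ℝ) τ = (δ 1 0 : ℂ) * τ + (δ 1 1 : ℂ) := by
      simp [denom]
    have hden : denom (δ : GL (Fin 2) ℝ) τ ≠ 0 := denom_ne_zero _ _
    have hsm : ((δ • τ : ℍ) : ℂ)
        = ((δ 0 0 : ℂ) * τ + (δ 0 1 : ℂ)) / ((δ 1 0 : ℂ) * τ + (δ 1 1 : ℂ)) := by
      rw [UpperHalfPlane.specialLinearGroup_apply]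
      simp
    have e1 : (δ 0 0 : ℂ) * τ + (δ 0 1 : ℂ) * 1
        = denom (δ : GL (Fin 2) ℝ) τ * ((δ • τ : ℍ) : ℂ) := by
      rw [hsm, hd, mul_one]
      rw [hd] at hden
      rw [mul_div_assoc', mul_div_cancel_left₀ _ hden]
    have e2 : (δ 1 0 : ℂ) * τ + (δ 1 1 : ℂ) * 1 = denom (δ : GL (Fin 2) ℝ) τ * 1 := by
      rw [hd]; ring
    rw [e1, e2, ker_eq_kerV, ker_eq_kerV, kerV_homog, kerV_diag, kerV_diag] at h
    simp only [smul_eq_mul] at h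
    rw [ModularForm.SL_slash_apply]
    have h' : denom (δ : GL (Fin 2) ℝ) τ ^ m * G 1 (m + 1) (δ • τ) = G δ (m + 1) τ := by
      have : ((m.factorial : ℕ) : ℂ) * (denom (δ : GL (Fin 2) ℝ) τ ^ m * G 1 (m + 1) (δ • τ))
          = ((m.factorial : ℕ) : ℂ) * G δ (m + 1) τ := by
        rw [← h]; ring
      exact mul_left_cancel₀ hfact this
    rw [← h', neg_neg, zpow_natCast, mul_comm]
  have hGγ : ∀ γ ∈ Gamma0 N, G γ = G 1 := by
    intro γ hγ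
    refine (hG γ).eq_of_zero_eq (hG 1) ?_
    rw [h0 γ, hG10]
    exact SlashInvariantFormClass.slash_action_eq f _ ⟨γ, hγ, rfl⟩
  have hEzero : E = 0 := by
    refine eq_zero_of_invariant_of_isZeroAtImInfty N m E ((hG 1).hasDeriv m).mdifferentiable
      (fun γ hγ => ?_) (fun δ => ?_)
    · rw [hEslash γ, hGγ γ hγ]
    · rw [hEslash δ]
      exact (hG δ).zero m
  -- descend along the chain
  have hdesc : ∀ i : ℕ, i ≤ m + 1 → G 1 (m + 1 - i) = 0 := by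
    intro i
    induction i with
    | zero => intro _; simpa using hEzero
    | succ i ih =>
      intro hi
      have hprev := ih (by omega)
      have hd := (hG 1).hasDeriv (m + 1 - (i + 1))
      have e : m + 1 - (i + 1) + 1 = m + 1 - i := by omega
      rw [e, hprev] at hd
      funext τ
      have h1 : HasDerivAt ((0 : ℍ → ℂ) ∘ ofComplex) (G 1 (m + 1 - (i + 1)) τ) (τ : ℂ) := hd τ
      have h2 : HasDerivAt ((0 : ℍ → ℂ) ∘ ofComplex) 0 (τ : ℂ) := by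
        have : ((0 : ℍ → ℂ) ∘ ofComplex) = fun _ => (0 : ℂ) := rfl
        rw [this]
        exact hasDerivAt_const _ _
      exact h1.unique h2
  have hf0 : G 1 0 = 0 := by
    have := hdesc (m + 1) le_rfl
    simpa using this
  rw [hG10] at hf0
  exact DFunLike.coe_injective hf0

end Fermat.Agent.S22
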