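import Fermat.Agent.S22.KernelAlg

/-!
# S22: integrality of the Eichler kernel at integral arguments
-/

set_option autoImplicit false

namespace Fermat.Agent.S22

open Polynomial

section

variable {W : Type*} [AddCommGroup W] [Module ℂ W]

/-- The finite set of vectors `τ ^ l • g (i + 1)`, `i, l ≤ m`. -/
def kerBasis (g : ℕ → W) (m : ℕ) (τ : ℂ) : Set W :=
  (fun p : ℕ × ℕ => τ ^ p.2 • g (p.1 + 1)) ''
    ((Finset.range (m + 1) ×ˢ Finset.range (m + 1) : Finset (ℕ × ℕ)) : Set (ℕ × ℕ))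

theorem kerBasis_finite (g : ℕ → W) (m : ℕ) (τ : ℂ) : (kerBasis g m τ).Finite :=
  (Finset.finite_toSet _).image _

theorem mem_kerBasis {g : ℕ → W} {m : ℕ} {τ : ℂ} {i l : ℕ} (hi : i ≤ m) (hl : l ≤ m) :
    τ ^ l • g (i + 1) ∈ kerBasis g m τ :=
  ⟨(i, l), by simp [Nat.lt_succ_of_le hi, Nat.lt_succ_of_le hl], rfl⟩

theorem kerBasis_shift_subset (g : ℕ → W) (m : ℕ) (τ : ℂ) :
    kerBasis (fun i => g (i + 1)) m τ ⊆ kerBasis g (m + 1) τ := by
  rintro w ⟨⟨i, l⟩, hp, rfl⟩
  simp only [Finset.coe_product, Finset.coe_range, Set.mem_prod, Set.mem_Iio] at hp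
  exact mem_kerBasis (g := g) (i := i + 1) (by omega) (by omega)

/-- integer-coefficient expansion of `(X - τ Y)^n`. -/
theorem int_sub_mul_pow_eq_sum (τ : ℂ) (X Y : ℤ) (n : ℕ) :
    ∃ c : ℕ → ℤ, ((X : ℂ) - τ * Y) ^ n = ∑ l ∈ Finset.range (n + 1), (c l : ℂ) * τ ^ l := by
  let p : ℤ[X] := (C X - Polynomial.X * C Y) ^ n
  have hdeg : p.natDegree < n + 1 := by
    have h1 : (C X - Polynomial.X * C Y : ℤ[X]).natDegree ≤ 1 := by
      refine (natDegree_sub_le _ _).trans ?_
      rw [natDegree_C]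
      refine max_le (Nat.zero_le _) ?_
      refine (natDegree_mul_le).trans ?_
      rw [natDegree_C, add_zero]
      exact natDegree_X_le
    have : p.natDegree ≤ n * 1 := natDegree_pow_le_of_le n h1
    omega
  refine ⟨fun l => p.coeff l, ?_⟩
  have h := Polynomial.aeval_eq_sum_range' (R := ℤ) (S := ℂ) hdeg τ
  have hp : Polynomial.aeval τ p = ((X : ℂ) - τ * Y) ^ n := by
    simp [p]
  rw [← hp, h]
  refine Finset.sum_congr rfl fun l _ => ?_
  rw [zsmul_eq_mul]

theorem kerV_mem_span (g : ℕ → W) (m : ℕ) (τ : ℂ) (X Y : ℤ) :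
    kerV g m τ X Y ∈ Submodule.span ℤ (kerBasis g m τ) := by
  induction m generalizing g with
  | zero =>
    refine Submodule.subset_span ?_
    have := mem_kerBasis (g := g) (m := 0) (τ := τ) (i := 0) (l := 0) le_rfl le_rfl
    simpa using this
  | succ m ih =>
    rw [kerV_succ]
    refine Submodule.add_mem _ ?_ ?_
    · obtain ⟨c, hc⟩ := int_sub_mul_pow_eq_sum τ X Y (m + 1)
      rw [hc, Finset.sum_smul]
      refine Submodule.sum_mem _ fun l hl => ?_
      rw [mul_smul, Int.cast_smul_eq_zsmul]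
      refine Submodule.smul_mem _ _ (Submodule.subset_span ?_)
      exact mem_kerBasis (g := g) (i := 0) (Nat.zero_le _)
        (Nat.lt_succ_iff.mp (Finset.mem_range.mp hl))
    · have h1 : (((m : ℂ) + 1) * (Y : ℂ)) = (((m + 1 : ℤ) * Y : ℤ) : ℂ) := by push_cast; ring
      rw [h1, Int.cast_smul_eq_zsmul]
      refine Submodule.smul_mem _ _ ?_
      exact Submodule.span_mono (kerBasis_shift_subset g m τ) (ih _)

end

end Fermat.Agent.S22
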