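import Fermat.Agent.S22.KernelAlg
import Fermat.Agent.S22.KernelInt
import Fermat.Agent.S22.Primitive
import Fermat.Agent.S22.Cosets
import Fermat.Agent.S22.KernelDeriv

/-!
# S22: the period functionals and the period lattice
-/

set_option autoImplicit false

namespace Fermat.Agent.S22

open UpperHalfPlane Filter Topology CongruenceSubgroup
open scoped MatrixGroups ModularForm Manifold

section chain

variable {N : ℕ} [NeZero N] {k : ℤ}

open ConjAct Pointwise in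
theorem exists_isChain_slash (f : CuspForm (Gamma0 N) k) (δ : SL(2, ℤ)) :
    ∃ G : ℕ → ℍ → ℂ, IsChain G ∧ G 0 = ⇑f ∣[k] δ := by
  have : ((toConjAct (δ : GL (Fin 2) ℝ)⁻¹) •
      ((Gamma0 N : Subgroup SL(2, ℤ)) : Subgroup (GL (Fin 2) ℝ))).IsArithmetic := by
    simpa [(show Rat.castHom ℝ = algebraMap ℚ ℝ by rfl), map_inv,
      Matrix.SpecialLinearGroup.map_mapGL]
      using! Subgroup.IsArithmetic.conj
        ((Gamma0 N : Subgroup SL(2, ℤ)) : Subgroup (GL (Fin 2) ℝ))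
        (Matrix.SpecialLinearGroup.mapGL ℚ δ)⁻¹
  obtain ⟨G, hG, h0⟩ := exists_isChain_of_cuspForm (CuspForm.translate f (δ : GL (Fin 2) ℝ))
  exact ⟨G, hG, h0⟩

/-- The chosen chain of iterated primitives of `f ∣[k] δ`. -/
noncomputable def chainOf (f : CuspForm (Gamma0 N) k) (δ : SL(2, ℤ)) : ℕ → ℍ → ℂ :=
  (exists_isChain_slash f δ).choose

theorem chainOf_isChain (f : CuspForm (Gamma0 N) k) (δ : SL(2, ℤ)) : IsChain (chainOf f δ) :=
  (exists_isChain_slash f δ).choose_spec.1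

theorem chainOf_zero (f : CuspForm (Gamma0 N) k) (δ : SL(2, ℤ)) :
    chainOf f δ 0 = ⇑f ∣[k] δ :=
  (exists_isChain_slash f δ).choose_spec.2

theorem chainOf_eq_of_isChain (f : CuspForm (Gamma0 N) k) (δ : SL(2, ℤ)) {G : ℕ → ℍ → ℂ}
    (hG : IsChain G) (h0 : G 0 = ⇑f ∣[k] δ) : chainOf f δ = G :=
  (chainOf_isChain f δ).eq_of_zero_eq hG ((chainOf_zero f δ).trans h0.symm)

theorem chainOf_add (f g : CuspForm (Gamma0 N) k) (δ : SL(2, ℤ)) :
    chainOf (f + g) δ = fun i => chainOf f δ i + chainOf g δ i := by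
  refine chainOf_eq_of_isChain _ _ ((chainOf_isChain f δ).add (chainOf_isChain g δ)) ?_
  simp only [chainOf_zero, CuspForm.coe_add, SlashAction.add_slash]

theorem chainOf_smul (c : ℂ) (f : CuspForm (Gamma0 N) k) (δ : SL(2, ℤ)) :
    chainOf (c • f) δ = fun i => c • chainOf f δ i := by
  refine chainOf_eq_of_isChain _ _ ((chainOf_isChain f δ).const_smul c) ?_
  simp only [chainOf_zero]
  rw [show (⇑(c • f) : ℍ → ℂ) = c • ⇑f from rfl, ModularForm.SL_smul_slash]

theorem slash_mul_of_mem (f : CuspForm (Gamma0 N) k) {γ : SL(2, ℤ)} (hγ : γ ∈ Gamma0 N)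
    (δ : SL(2, ℤ)) : ⇑f ∣[k] (γ * δ) = ⇑f ∣[k] δ := by
  rw [SlashAction.slash_mul]
  congr 1
  have := SlashInvariantFormClass.slash_action_eq f (γ : GL (Fin 2) ℝ)
    (Subgroup.mem_map_of_mem _ hγ)
  exact this

theorem chainOf_mul_of_mem (f : CuspForm (Gamma0 N) k) {γ : SL(2, ℤ)} (hγ : γ ∈ Gamma0 N)
    (δ : SL(2, ℤ)) : chainOf f (γ * δ) = chainOf f δ := by
  refine chainOf_eq_of_isChain _ _ (chainOf_isChain f δ) ?_
  rw [chainOf_zero, slash_mul_of_mem f hγ]

/-- The value functional `f ↦ chainOf f δ i τ`. -/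
noncomputable def chainL (N : ℕ) [NeZero N] (k : ℤ) (δ : SL(2, ℤ)) (i : ℕ) (τ : ℍ) :
    Module.Dual ℂ (CuspForm (Gamma0 N) k) where
  toFun f := chainOf f δ i τ
  map_add' f g := by rw [chainOf_add]; rfl
  map_smul' c f := by rw [chainOf_smul]; rfl

@[simp] theorem chainL_apply (δ : SL(2, ℤ)) (i : ℕ) (τ : ℍ) (f : CuspForm (Gamma0 N) k) :
    chainL N k δ i τ f = chainOf f δ i τ := rfl

end chain

section period

variable (N : ℕ) [NeZero N] (m : ℕ)

/-- The first component of `δ · (X, Y)`. -/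
def actX (δ : SL(2, ℤ)) (X Y : ℤ) : ℤ := δ 0 0 * X + δ 0 1 * Y
/-- The second component of `δ · (X, Y)`. -/
def actY (δ : SL(2, ℤ)) (X Y : ℤ) : ℤ := δ 1 0 * X + δ 1 1 * Y

theorem actX_mul (γ δ : SL(2, ℤ)) (X Y : ℤ) :
    actX (γ * δ) X Y = actX γ (actX δ X Y) (actY δ X Y) := by
  simp only [actX, actY, Matrix.SpecialLinearGroup.coe_mul, Matrix.mul_apply, Fin.sum_univ_two]
  ring

theorem actY_mul (γ δ : SL(2, ℤ)) (X Y : ℤ) :
    actY (γ * δ) X Y = actY γ (actX δ X Y) (actY δ X Y) := by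
  simp only [actX, actY, Matrix.SpecialLinearGroup.coe_mul, Matrix.mul_apply, Fin.sum_univ_two]
  ring

/-- The period functional `f ↦ c_f(δ; (X, Y))`. -/
noncomputable def period (δ : SL(2, ℤ)) (X Y : ℤ) :
    Module.Dual ℂ (CuspForm (Gamma0 N) ((m : ℤ) + 2)) :=
  kerV (fun i => chainL N ((m : ℤ) + 2) 1 i (δ • UpperHalfPlane.I)) m
      ((δ • UpperHalfPlane.I : ℍ) : ℂ) (actX δ X Y) (actY δ X Y)
    - kerV (fun i => chainL N ((m : ℤ) + 2) δ i UpperHalfPlane.I) m
      (UpperHalfPlane.I : ℂ) X Y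

variable {N m}

theorem period_apply_I (δ : SL(2, ℤ)) (X Y : ℤ) (f : CuspForm (Gamma0 N) ((m : ℤ) + 2)) :
    period N m δ X Y f =
      ker (chainOf f 1) m (δ • UpperHalfPlane.I) (actX δ X Y) (actY δ X Y)
        - ker (chainOf f δ) m UpperHalfPlane.I X Y := by
  have h1 := map_kerV (LinearMap.applyₗ f : Module.Dual ℂ _ →ₗ[ℂ] ℂ)
    (fun i => chainL N ((m : ℤ) + 2) 1 i (δ • UpperHalfPlane.I)) m
      ((δ • UpperHalfPlane.I : ℍ) : ℂ) (actX δ X Y) (actY δ X Y)
  have h2 := map_kerV (LinearMap.applyₗ f : Module.Dual ℂ _ →ₗ[ℂ] ℂ)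
    (fun i => chainL N ((m : ℤ) + 2) δ i UpperHalfPlane.I) m
      (UpperHalfPlane.I : ℂ) X Y
  simp only [LinearMap.applyₗ_apply_apply] at h1 h2
  rw [period, LinearMap.sub_apply, h1, h2, ker_eq_kerV, ker_eq_kerV]
  rfl

theorem period_apply (δ : SL(2, ℤ)) (X Y : ℤ) (f : CuspForm (Gamma0 N) ((m : ℤ) + 2)) (τ : ℍ) :
    period N m δ X Y f =
      ker (chainOf f 1) m (δ • τ) (actX δ X Y) (actY δ X Y) - ker (chainOf f δ) m τ X Y := by
  rw [period_apply_I]
  have h0 : chainOf f δ 0 = chainOf f 1 0 ∣[(m : ℤ) + 2] δ := by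
    rw [chainOf_zero, chainOf_zero, SlashAction.slash_one]
  have := ker_SL_sub_eq (chainOf_isChain f 1) (chainOf_isChain f δ) m δ h0 X Y
    UpperHalfPlane.I τ
  simpa [actX, actY] using this

/-- cocycle relation for `γ ∈ Γ₀(N)`. -/
theorem period_mul_of_mem {γ : SL(2, ℤ)} (hγ : γ ∈ Gamma0 N) (δ : SL(2, ℤ)) (X Y : ℤ) :
    period N m (γ * δ) X Y = period N m γ (actX δ X Y) (actY δ X Y) + period N m δ X Y := by
  ext f
  rw [LinearMap.add_apply, period_apply (γ * δ) X Y f UpperHalfPlane.I,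
    period_apply γ _ _ f (δ • UpperHalfPlane.I), period_apply δ X Y f UpperHalfPlane.I,
    chainOf_mul_of_mem f hγ, actX_mul, actY_mul, mul_smul]
  have : chainOf f γ = chainOf f 1 := by
    have := chainOf_mul_of_mem f hγ 1
    rwa [mul_one] at this
  rw [this]
  ring

/-- each period functional lies in an explicit finitely generated lattice. -/
def periodBasis (N : ℕ) [NeZero N] (m : ℕ) (δ : SL(2, ℤ)) :
    Set (Module.Dual ℂ (CuspForm (Gamma0 N) ((m : ℤ) + 2))) :=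
  kerBasis (fun i => chainL N ((m : ℤ) + 2) 1 i (δ • UpperHalfPlane.I)) m
      ((δ • UpperHalfPlane.I : ℍ) : ℂ) ∪
    kerBasis (fun i => chainL N ((m : ℤ) + 2) δ i UpperHalfPlane.I) m (UpperHalfPlane.I : ℂ)

theorem periodBasis_finite (δ : SL(2, ℤ)) : (periodBasis N m δ).Finite :=
  (kerBasis_finite _ _ _).union (kerBasis_finite _ _ _)

theorem period_mem_span_periodBasis (δ : SL(2, ℤ)) (X Y : ℤ) :
    period N m δ X Y ∈ Submodule.span ℤ (periodBasis N m δ) := by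
  refine Submodule.sub_mem _ ?_ ?_
  · exact Submodule.span_mono Set.subset_union_left (kerV_mem_span _ m _ _ _)
  · exact Submodule.span_mono Set.subset_union_right (kerV_mem_span _ m _ _ _)

variable (N m)

/-- The period lattice. -/
def periodLattice : Submodule ℤ (Module.Dual ℂ (CuspForm (Gamma0 N) ((m : ℤ) + 2))) :=
  Submodule.span ℤ {l | ∃ (δ : SL(2, ℤ)) (X Y : ℤ), l = period N m δ X Y}

theorem period_mem_periodLattice (δ : SL(2, ℤ)) (X Y : ℤ) :
    period N m δ X Y ∈ periodLattice N m :=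
  Submodule.subset_span ⟨δ, X, Y, rfl⟩

/-- The period lattice is contained in a finitely generated `ℤ`-module. -/
theorem exists_fg_periodLattice_le :
    ∃ Λ' : Submodule ℤ (Module.Dual ℂ (CuspForm (Gamma0 N) ((m : ℤ) + 2))),
      Λ'.FG ∧ periodLattice N m ≤ Λ' := by
  classical
  obtain ⟨G, R, hG, hind⟩ := sl2Z_induction_gamma0 N
  let B : Set (Module.Dual ℂ (CuspForm (Gamma0 N) ((m : ℤ) + 2))) :=
    ⋃ s ∈ (G ∪ R : Finset SL(2, ℤ)), periodBasis N m s
  have hB : B.Finite := Set.Finite.biUnion (Finset.finite_toSet _) fun s _ => periodBasis_finite s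
  refine ⟨Submodule.span ℤ B, Submodule.fg_span hB, ?_⟩
  have hsub : ∀ s ∈ (G ∪ R : Finset SL(2, ℤ)), ∀ X Y : ℤ,
      period N m s X Y ∈ Submodule.span ℤ B := fun s hs X Y =>
    Submodule.span_mono (Set.subset_biUnion_of_mem (u := fun s => periodBasis N m s) hs)
      (period_mem_span_periodBasis s X Y)
  have key : ∀ δ : SL(2, ℤ), ∀ X Y : ℤ, period N m δ X Y ∈ Submodule.span ℤ B := by
    refine hind _ (fun ρ hρ X Y => hsub ρ (Finset.mem_union_right _ hρ) X Y) ?_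
    intro g hg δ ih X Y
    rw [period_mul_of_mem (hG g hg)]
    exact Submodule.add_mem _ (hsub g (Finset.mem_union_left _ hg) _ _) (ih X Y)
  refine Submodule.span_le.mpr ?_
  rintro l ⟨δ, X, Y, rfl⟩
  exact key δ X Y

end period

end Fermat.Agent.S22
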